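/-
PROGRAMME MS (S12), chapter LOCP (helper2): **the abstract local-at-`p` lemma** (helper6's idea,
finding T/iface/MS-S14-USE6), proved against helper8's `StepAlg8.CofData`.

`G` acts on `X`, `D : CofData G X p k c` (`1 ≤ k`), `#X[p] = p²`, `K` is `p`-divisible in `X`.
LOCAL DATA at a place over `p`: subgroups `I ≤ Dec ≤ G`, a subgroup `F ⊆ X` and `σ₀ ∈ I` with
* `F` is `Dec`-stable;
* CLOSENESS: `σ • Q - Q ∈ F` for `σ ∈ I` and `Q ∈ X[p^(k+1)]`;
* `X[p] ⊄ F`;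
* `c σ₀ ≢ 1 mod p`.
Then
* `K_eq` : `x ∈ D.K ↔ x ∈ F ∧ p^k • x = 0`;
* `exists_stable_compl` : `L := image of F ∩ p⁻¹K` is a `Dec`-stable complement of `D.C` in `D.V`;
* `compl_unique` : every `σ₀`-stable complement of `D.C` equals `L`;
* `smul_sub_mem_next` : for every `σ₀`-stable complement `C'`, `σ • x - x ∈ D.next C'` for `σ ∈ I`,
  `x ∈ X[p^(k+1)]`.
-/
import Mathlib
import Fermat.Agent.MS.STEP.StepAlg8
import Fermat.Agent.MS.LOC.TwoLines5

set_option autoImplicit false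
set_option linter.unusedSectionVars false
set_option linter.style.haveILetI false

namespace Fermat.Agent.MS.LOCP.AbsLocalP2

open Fermat.Agent.MS.STEP.StepAlg8 Fermat.Agent.MS.STEP.StepAlg8.CofData

variable {G X : Type} [Group G] [AddCommGroup X] [DistribMulAction G X] {p k : ℕ} {c : G → ℕ}

/-- The local data at a place over `p`. -/
structure IsClose (D : CofData G X p k c) (Dec I : Subgroup G) (F : AddSubgroup X) (σ₀ : G) :
    Prop where
  I_le : I ≤ Dec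
  stable : ∀ σ ∈ Dec, ∀ Q ∈ F, σ • Q ∈ F
  close : ∀ σ ∈ I, ∀ Q : X, p ^ (k + 1) • Q = 0 → σ • Q - Q ∈ F
  notall : ∃ Q : X, p • Q = 0 ∧ Q ∉ F
  mem : σ₀ ∈ I
  ram : ((c σ₀ : ℕ) : ZMod p) ≠ 1

variable {D : CofData G X p k c} {Dec I : Subgroup G} {F : AddSubgroup X} {σ₀ : G}

/-! ### `K ⊆ F` -/

theorem pow_nsmul_gen (D : CofData G X p k c) : p ^ k • D.gen = 0 := by
  rw [← D.order]; exact addOrderOf_nsmul_eq_zero _

theorem pow_succ_nsmul_of_pow {x : X} (hx : p ^ k • x = 0) : p ^ (k + 1) • x = 0 := by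
  rw [pow_succ, mul_comm, mul_nsmul', hx, nsmul_zero]

theorem gen_mem_F (h : IsClose D Dec I F σ₀) (hp : p.Prime) (hk : 1 ≤ k) : D.gen ∈ F := by
  obtain ⟨t, ht⟩ := D.exists_psi hp hk σ₀
  have h1 : σ₀ • D.gen - D.gen ∈ F :=
    h.close σ₀ h.mem _ (pow_succ_nsmul_of_pow (pow_nsmul_gen D))
  set u : ℤ := (c σ₀ : ℤ) + p * t - 1 with hu
  have h2 : σ₀ • D.gen - D.gen = u • D.gen := by
    rw [ht, hu, sub_zsmul, one_zsmul, sub_eq_add_neg]
  rw [h2] at h1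
  -- `u` is prime to `p`
  have hup : ¬ (p : ℤ) ∣ u := by
    intro hdvd
    apply h.ram
    have h3 : (p : ℤ) ∣ (c σ₀ : ℤ) - 1 := by
      have : (c σ₀ : ℤ) - 1 = u - p * t := by rw [hu]; ring
      rw [this]
      exact dvd_sub hdvd (dvd_mul_right _ _)
    have h4 := (ZMod.intCast_zmod_eq_zero_iff_dvd ((c σ₀ : ℤ) - 1) p).mpr h3
    push_cast at h4
    exact sub_eq_zero.mp h4
  have hcop : IsCoprime u ((p : ℤ) ^ k) :=
    IsCoprime.pow_right ((Nat.prime_iff_prime_int.mp hp).coprime_iff_not_dvd.mpr hup).symm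
  obtain ⟨a, b, hab⟩ := hcop
  have h5 : D.gen = a • (u • D.gen) + b • ((p : ℤ) ^ k • D.gen) := by
    rw [← mul_zsmul, ← mul_zsmul, ← add_zsmul, hab, one_zsmul]
  have h6 : ((p : ℤ) ^ k) • D.gen = 0 := by
    have := pow_nsmul_gen D
    rw [← natCast_zsmul, Nat.cast_pow] at this
    exact this
  rw [h5, h6, zsmul_zero, add_zero]
  exact F.zsmul_mem h1 a

theorem K_le_F (h : IsClose D Dec I F σ₀) (hp : p.Prime) (hk : 1 ≤ k) : D.K ≤ F := by
  rw [D.K_eq, AddSubgroup.zmultiples_le]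
  exact gen_mem_F h hp hk

/-! ### `F ∩ X[p^k] ⊆ K` -/

/-- an element `y` with `p • y ∈ K` and `p^k • y = 0` differs from a `p`-torsion element by an
element of `K`. -/
theorem exists_sub_tors (D : CofData G X p k c) (hp : p.Prime) (hk : 1 ≤ k) {y : X}
    (hy : p • y ∈ D.K) (hyk : p ^ k • y = 0) : ∃ g ∈ D.K, p • (y - g) = 0 := by
  rw [D.K_eq] at hy
  obtain ⟨m, hm⟩ := AddSubgroup.mem_zmultiples_iff.1 hy
  obtain ⟨j, rfl⟩ := Nat.exists_eq_add_of_le hk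
  -- `p^j • (m • gen) = 0`
  have h1 : ((p : ℤ) ^ j * m) • D.gen = 0 := by
    rw [mul_zsmul, hm, ← Nat.cast_pow, natCast_zsmul, ← mul_nsmul', ← pow_succ, add_comm j 1]
    exact hyk
  rw [← addOrderOf_dvd_iff_zsmul_eq_zero, D.order, Nat.cast_pow, add_comm 1 j, pow_succ] at h1
  have hpj : ((p : ℤ) ^ j) ≠ 0 := pow_ne_zero j (Int.natCast_ne_zero.mpr hp.ne_zero)
  obtain ⟨m', hm'⟩ := (mul_dvd_mul_iff_left hpj).1 h1
  refine ⟨m' • D.gen, ?_, ?_⟩
  · rw [D.K_eq]; exact AddSubgroup.zsmul_mem _ (AddSubgroup.mem_zmultiples _) _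
  · rw [nsmul_sub, ← hm, hm', ← natCast_zsmul (m' • D.gen), ← mul_zsmul, sub_self]

/-- the element of order `p` of `K`. -/
theorem exists_order_p (D : CofData G X p k c) (hp : p.Prime) (hk : 1 ≤ k) :
    ∃ z ∈ D.K, addOrderOf z = p := by
  obtain ⟨j, rfl⟩ := Nat.exists_eq_add_of_le hk
  refine ⟨p ^ j • D.gen, D.K.nsmul_mem D.gen_mem _, ?_⟩
  rw [addOrderOf_nsmul' _ (pow_ne_zero j hp.ne_zero), D.order]
  have : (p ^ (1 + j)).gcd (p ^ j) = p ^ j :=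
    Nat.gcd_eq_right (pow_dvd_pow p (by omega))
  rw [this, add_comm 1 j, pow_succ]
  exact Nat.mul_div_cancel_left _ (pow_pos hp.pos j)

theorem mem_K_of_mem_F (h : IsClose D Dec I F σ₀) (hp : p.Prime) (hk : 1 ≤ k)
    (hcardp : Nat.card ↥(tors X p) = p ^ 2) {x : X} (hxF : x ∈ F) (hxk : p ^ k • x = 0) :
    x ∈ D.K := by
  classical
  by_contra hxK
  have hKF := K_le_F h hp hk
  -- minimal `j` with `p^j • x ∈ K`
  have hex : ∃ j : ℕ, p ^ j • x ∈ D.K := ⟨k, by rw [hxk]; exact D.K.zero_mem⟩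
  set j := Nat.find hex with hj
  have hjK : p ^ j • x ∈ D.K := Nat.find_spec hex
  have hj0 : j ≠ 0 := by
    intro h0
    rw [h0, pow_zero, one_nsmul] at hjK
    exact hxK hjK
  obtain ⟨i, hi⟩ : ∃ i, j = i + 1 := ⟨j - 1, by omega⟩
  have hiK : p ^ i • x ∉ D.K := Nat.find_min hex (by omega)
  set y : X := p ^ i • x with hy
  have hyF : y ∈ F := F.nsmul_mem hxF _
  have hpy : p • y ∈ D.K := by
    rw [hy, ← mul_nsmul', ← pow_succ', ← hi]; exact hjK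
  have hyk : p ^ k • y = 0 := by
    rw [hy, nsmul_left_comm, hxk, nsmul_zero]
  obtain ⟨g, hgK, hpe⟩ := exists_sub_tors D hp hk hpy hyk
  set e : X := y - g with he
  have heF : e ∈ F := F.sub_mem hyF (hKF hgK)
  have heK : e ∉ D.K := fun hc => hiK (by
    have : y = e + g := by rw [he]; abel
    rw [this]; exact D.K.add_mem hc hgK)
  -- `H := F ⊓ X[p]` is everything
  obtain ⟨z, hzK, hzo⟩ := exists_order_p D hp hk
  have hpz : p • z = 0 := by rw [← hzo]; exact addOrderOf_nsmul_eq_zero z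
  set H : AddSubgroup X := F ⊓ tors X p with hH
  have hHle : H ≤ tors X p := inf_le_right
  have : Finite ↥(tors X p) :=
    Nat.finite_of_card_ne_zero (by rw [hcardp]; exact pow_ne_zero 2 hp.ne_zero)
  have : Finite ↥H := Finite.of_injective (AddSubgroup.inclusion hHle)
    (AddSubgroup.inclusion_injective hHle)
  have hzH : z ∈ H := ⟨hKF hzK, mem_tors.2 hpz⟩
  have heH : e ∈ H := ⟨heF, mem_tors.2 hpe⟩
  have hZle : AddSubgroup.zmultiples z ≤ H := (AddSubgroup.zmultiples_le).2 hzH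
  have hcardZ : Nat.card ↥(AddSubgroup.zmultiples z) = p := by
    rw [Nat.card_zmultiples, hzo]
  have hdvd1 : p ∣ Nat.card ↥H := by
    rw [← hcardZ]; exact AddSubgroup.card_dvd_of_le hZle
  have hdvd2 : Nat.card ↥H ∣ p ^ 2 := by
    rw [← hcardp]; exact AddSubgroup.card_dvd_of_le hHle
  have hne : Nat.card ↥H ≠ p := by
    intro hc
    have heq : AddSubgroup.zmultiples z = H :=
      AddSubgroup.eq_of_le_of_card_ge hZle (by rw [hc, hcardZ])
    apply heK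
    have : e ∈ AddSubgroup.zmultiples z := by rw [heq]; exact heH
    exact (AddSubgroup.zmultiples_le.2 hzK) this
  have hcardH : Nat.card ↥H = p ^ 2 := by
    obtain ⟨n, hn2, hn⟩ := (Nat.dvd_prime_pow hp).1 hdvd2
    interval_cases n
    · rw [hn, pow_zero] at hdvd1
      exact absurd (Nat.le_of_dvd one_pos hdvd1) (by have := hp.two_le; omega)
    · rw [pow_one] at hn; exact absurd hn hne
    · exact hn
  have hHeq : H = tors X p :=
    AddSubgroup.eq_of_le_of_card_ge hHle (by rw [hcardH, hcardp])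
  obtain ⟨Q, hQ, hQF⟩ := h.notall
  apply hQF
  have : Q ∈ H := by rw [hHeq]; exact mem_tors.2 hQ
  exact this.1

/-- **`K = F ∩ X[p^k]`.** -/
theorem K_eq (h : IsClose D Dec I F σ₀) (hp : p.Prime) (hk : 1 ≤ k)
    (hcardp : Nat.card ↥(tors X p) = p ^ 2) (x : X) :
    x ∈ D.K ↔ x ∈ F ∧ p ^ k • x = 0 :=
  ⟨fun hx => ⟨K_le_F h hp hk hx, mem_tors.1 (D.K_le_tors hx)⟩,
    fun hx => mem_K_of_mem_F h hp hk hcardp hx.1 hx.2⟩

/-! ### the stable complement `L` -/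

/-- the image of `F ∩ p⁻¹K` in `V`, as an additive subgroup. -/
def Ladd (D : CofData G X p k c) (F : AddSubgroup X) : AddSubgroup D.V :=
  (F.addSubgroupOf D.A).map D.proj

/-- the image of `F ∩ p⁻¹K` in `V`. -/
def L (D : CofData G X p k c) (F : AddSubgroup X) : Submodule (ZMod p) D.V :=
  AddSubgroup.toZModSubmodule p (Ladd D F)

theorem mem_L {v : D.V} : v ∈ L D F ↔ ∃ x : ↥D.A, (x : X) ∈ F ∧ D.proj x = v := by
  show v ∈ Ladd D F ↔ _
  unfold Ladd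
  rw [AddSubgroup.mem_map]
  constructor
  · rintro ⟨x, hx, rfl⟩
    exact ⟨x, AddSubgroup.mem_addSubgroupOf.1 hx, rfl⟩
  · rintro ⟨x, hx, rfl⟩
    exact ⟨x, AddSubgroup.mem_addSubgroupOf.2 hx, rfl⟩

theorem L_stable (h : IsClose D Dec I F σ₀) {σ : G} (hσ : σ ∈ Dec) {v : D.V} (hv : v ∈ L D F) :
    σ • v ∈ L D F := by
  rw [mem_L] at hv ⊢
  obtain ⟨x, hx, rfl⟩ := hv
  exact ⟨D.actA σ x, h.stable σ hσ _ hx, rfl⟩

theorem disjoint_C_L (h : IsClose D Dec I F σ₀) (hp : p.Prime) (hk : 1 ≤ k)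
    (hcardp : Nat.card ↥(tors X p) = p ^ 2) : Disjoint D.C (L D F) := by
  rw [Submodule.disjoint_def]
  intro v hvC hvL
  obtain ⟨x, hx, rfl⟩ := D.mem_C.1 hvC
  obtain ⟨y, hy, hxy⟩ := mem_L.1 hvL
  have h1 : (y : X) - (x : X) ∈ D.K := (D.proj_eq_iff y x).1 hxy
  have hxF : (x : X) ∈ F := by
    have : (x : X) = (y : X) - ((y : X) - (x : X)) := by abel
    rw [this]
    exact F.sub_mem hy (K_le_F h hp hk h1)
  have hxk : p ^ k • (x : X) = 0 := by
    obtain ⟨j, rfl⟩ := Nat.exists_eq_add_of_le hk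
    rw [pow_add, pow_one, mul_comm p (p ^ j), mul_nsmul', hx, nsmul_zero]
  exact (D.proj_eq_zero_iff x).2 (mem_K_of_mem_F h hp hk hcardp hxF hxk)

/-- the scalar `1 - c σ₀` is invertible. -/
theorem eq_zero_of_smul_eq (h : IsClose D Dec I F σ₀) (hp : p.Prime) {v : D.V}
    (hv : ((c σ₀ : ℕ) : ZMod p) • v = v) : v = 0 := by
  haveI : Fact p.Prime := ⟨hp⟩
  have h1 : (((c σ₀ : ℕ) : ZMod p) - 1) • v = 0 := by rw [sub_smul, one_smul, hv, sub_self]
  have h2 : (((c σ₀ : ℕ) : ZMod p) - 1) ≠ 0 := sub_ne_zero.mpr h.ram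
  exact (smul_eq_zero.mp h1).resolve_left h2

theorem L_ne_bot (h : IsClose D Dec I F σ₀) (hp : p.Prime) (hk : 1 ≤ k)
    (hcardp : Nat.card ↥(tors X p) = p ^ 2) (hsurj : ∀ y ∈ D.K, ∃ x : X, p • x = y) :
    L D F ≠ ⊥ := by
  intro hbot
  -- `σ₀` acts trivially on `V`
  have htriv : ∀ v : D.V, σ₀ • v = v := by
    intro v
    obtain ⟨x, rfl⟩ := D.proj_surjective v
    rw [smul_proj, proj_eq_iff, coe_actA]
    have hxt : p ^ (k + 1) • (x : X) = 0 := mem_tors.1 (D.A_le_tors x.2)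
    have h1 : σ₀ • (x : X) - (x : X) ∈ F := h.close σ₀ h.mem _ hxt
    have h2 : σ₀ • (x : X) - (x : X) ∈ D.A := D.A.sub_mem (D.A_stable σ₀ _ x.2) x.2
    have h3 : D.proj ⟨_, h2⟩ ∈ L D F := mem_L.2 ⟨⟨_, h2⟩, h1, rfl⟩
    rw [hbot, Submodule.mem_bot] at h3
    exact (D.proj_eq_zero_iff _).1 h3
  -- hence `V ⊆ C`
  have htop : ∀ v : D.V, v ∈ D.C := by
    intro v
    have h1 := D.cyclo_quot hp hk σ₀ v
    rw [htriv v] at h1
    -- `v - c v ∈ C` and `C` is fixed by `σ₀`; apply `σ₀ - c` once more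
    have h2 : σ₀ • (v - ((c σ₀ : ℕ) : ZMod p) • v) = v - ((c σ₀ : ℕ) : ZMod p) • v :=
      htriv _
    -- `(1 - c) v ∈ C` with `1 - c` a unit
    haveI : Fact p.Prime := ⟨hp⟩
    have hu : ((1 : ZMod p) - ((c σ₀ : ℕ) : ZMod p)) ≠ 0 := sub_ne_zero.mpr (Ne.symm h.ram)
    have h3 : ((1 : ZMod p) - ((c σ₀ : ℕ) : ZMod p)) • v ∈ D.C := by
      rw [sub_smul, one_smul]; exact h1
    have h4 := D.C.smul_mem ((1 : ZMod p) - ((c σ₀ : ℕ) : ZMod p))⁻¹ h3
    rwa [smul_smul, inv_mul_cancel₀ hu, one_smul] at h4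
  have hCtop : D.C = ⊤ := Submodule.eq_top_iff'.2 htop
  have hcV := D.card_V hcardp hsurj hp
  have hcC := D.card_C hcardp hp hk
  have : Nat.card ↥D.C = Nat.card D.V := by
    rw [hCtop]
    exact Nat.card_congr (Submodule.topEquiv (R := ZMod p) (M := D.V)).toEquiv
  rw [hcC, hcV] at this
  have h2 := hp.two_le
  nlinarith

/-- **`L` is a complement of `C`.** -/
theorem isCompl_C_L (h : IsClose D Dec I F σ₀) (hp : p.Prime) (hk : 1 ≤ k)
    (hcardp : Nat.card ↥(tors X p) = p ^ 2) (hsurj : ∀ y ∈ D.K, ∃ x : X, p • x = y) :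
    IsCompl D.C (L D F) := by
  haveI : Fact p.Prime := ⟨hp⟩
  have hcV := D.card_V hcardp hsurj hp
  have hcC := D.card_C hcardp hp hk
  have hfinV : Finite D.V :=
    Nat.finite_of_card_ne_zero (by rw [hcV]; exact pow_ne_zero 2 hp.ne_zero)
  have hfd : FiniteDimensional (ZMod p) D.V := Module.Finite.of_finite
  have h2 := Fermat.Agent.MS.LOC.TwoLines5.finrank_eq_two_of_card (p := p) hcV
  have hC1 := Fermat.Agent.MS.LOC.TwoLines5.finrank_eq_one_of_card D.C hcC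
  have hdisj := disjoint_C_L h hp hk hcardp
  have hLpos : 0 < Module.finrank (ZMod p) ↥(L D F) := by
    rw [Module.finrank_pos_iff_exists_ne_zero]
    obtain ⟨x, hx, hx0⟩ := (Submodule.ne_bot_iff _).mp (L_ne_bot h hp hk hcardp hsurj)
    exact ⟨⟨x, hx⟩, fun h => hx0 (congrArg Subtype.val h)⟩
  have hsup : D.C ⊔ L D F = ⊤ := by
    apply Submodule.eq_top_of_finrank_eq
    have h3 := Submodule.finrank_sup_add_finrank_inf_eq D.C (L D F)
    rw [hdisj.eq_bot, finrank_bot, hC1] at h3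
    have h4 : Module.finrank (ZMod p) ↥(D.C ⊔ L D F) ≤ Module.finrank (ZMod p) D.V :=
      Submodule.finrank_le _
    omega
  exact ⟨hdisj, codisjoint_iff.mpr hsup⟩

/-- **(locally split)** a `Dec`-stable complement of `C` exists. -/
theorem exists_stable_compl (h : IsClose D Dec I F σ₀) (hp : p.Prime) (hk : 1 ≤ k)
    (hcardp : Nat.card ↥(tors X p) = p ^ 2) (hsurj : ∀ y ∈ D.K, ∃ x : X, p • x = y) :
    ∃ C' : Submodule (ZMod p) D.V, (∀ σ ∈ Dec, ∀ v ∈ C', σ • v ∈ C') ∧ IsCompl D.C C' :=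
  ⟨L D F, fun _ hσ _ hv => L_stable h hσ hv, isCompl_C_L h hp hk hcardp hsurj⟩

/-! ### uniqueness of the `σ₀`-stable complement -/

theorem compl_le_of_stable (h : IsClose D Dec I F σ₀) (hp : p.Prime) (hk : 1 ≤ k)
    {C₁ C₂ : Submodule (ZMod p) D.V} (h₁ : ∀ v ∈ C₁, σ₀ • v ∈ C₁) (h₂ : ∀ v ∈ C₂, σ₀ • v ∈ C₂)
    (hc₁ : IsCompl D.C C₁) (hc₂ : IsCompl D.C C₂) : C₁ ≤ C₂ := by
  haveI : Fact p.Prime := ⟨hp⟩
  intro v hv
  have hv' : v ∈ D.C ⊔ C₂ := by rw [hc₂.sup_eq_top]; exact Submodule.mem_top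
  obtain ⟨a, ha, l, hl, rfl⟩ := Submodule.mem_sup.mp hv'
  have hq : ∀ x : D.V, σ₀ • x - ((c σ₀ : ℕ) : ZMod p) • x ∈ D.C := D.cyclo_quot hp hk σ₀
  have e1 := Fermat.Agent.MS.LOC.TwoLines5.smul_eq_smul_of_mem D.C C₁ hc₁.disjoint σ₀
    ((c σ₀ : ℕ) : ZMod p) h₁ hq hv
  have e2 := Fermat.Agent.MS.LOC.TwoLines5.smul_eq_smul_of_mem D.C C₂ hc₂.disjoint σ₀
    ((c σ₀ : ℕ) : ZMod p) h₂ hq hl
  have e3 : σ₀ • a = a := D.C_fixed hk σ₀ a ha
  rw [smul_add, e3, e2, smul_add] at e1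
  have e4 : ((c σ₀ : ℕ) : ZMod p) • a = a := (add_right_cancel e1).symm
  rw [eq_zero_of_smul_eq h hp e4, zero_add]
  exact hl

/-- **every `σ₀`-stable complement of `C` is `L`.** -/
theorem compl_unique (h : IsClose D Dec I F σ₀) (hp : p.Prime) (hk : 1 ≤ k)
    (hcardp : Nat.card ↥(tors X p) = p ^ 2) (hsurj : ∀ y ∈ D.K, ∃ x : X, p • x = y)
    {C' : Submodule (ZMod p) D.V} (hC' : ∀ v ∈ C', σ₀ • v ∈ C') (hc : IsCompl D.C C') :
    C' = L D F := by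
  have hL : ∀ v ∈ L D F, σ₀ • v ∈ L D F := fun v hv => L_stable h (h.I_le h.mem) hv
  have hcL := isCompl_C_L h hp hk hcardp hsurj
  exact le_antisymm (compl_le_of_stable h hp hk hC' hL hc hcL)
    (compl_le_of_stable h hp hk hL hC' hcL hc)

/-- **(θ unramified at `p`)** for every `σ₀`-stable complement `C'`, the inertia group acts
trivially on `X[p^(k+1)] / D.next C'`. -/
theorem smul_sub_mem_next (h : IsClose D Dec I F σ₀) (hp : p.Prime) (hk : 1 ≤ k)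
    (hcardp : Nat.card ↥(tors X p) = p ^ 2) (hsurj : ∀ y ∈ D.K, ∃ x : X, p • x = y)
    {C' : Submodule (ZMod p) D.V} (hC' : ∀ v ∈ C', σ₀ • v ∈ C') (hc : IsCompl D.C C')
    {σ : G} (hσ : σ ∈ I) {x : X} (hx : p ^ (k + 1) • x = 0) : σ • x - x ∈ D.next C' := by
  rw [compl_unique h hp hk hcardp hsurj hC' hc, mem_next]
  have hpx : p ^ k • (p • x) = 0 := by
    rw [← mul_nsmul', ← pow_succ]; exact hx
  have hA : σ • x - x ∈ D.A := by
    rw [mem_A, nsmul_sub, ← gsmul_nsmul]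
    exact D.cofix σ _ hpx
  exact ⟨hA, mem_L.2 ⟨⟨_, hA⟩, h.close σ hσ x hx, rfl⟩⟩

/-- the next subgroup is `F ∩ X[p^(k+1)]` again (so the local description propagates). -/
theorem mem_next_iff (h : IsClose D Dec I F σ₀) (hp : p.Prime) (hk : 1 ≤ k)
    (hcardp : Nat.card ↥(tors X p) = p ^ 2) (hsurj : ∀ y ∈ D.K, ∃ x : X, p • x = y)
    {C' : Submodule (ZMod p) D.V} (hC' : ∀ v ∈ C', σ₀ • v ∈ C') (hc : IsCompl D.C C') (x : X) :
    x ∈ D.next C' ↔ x ∈ F ∧ p ^ (k + 1) • x = 0 := by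
  rw [compl_unique h hp hk hcardp hsurj hC' hc, mem_next]
  constructor
  · rintro ⟨hA, hL⟩
    obtain ⟨y, hyF, hy⟩ := mem_L.1 hL
    have h1 : (y : X) - x ∈ D.K := (D.proj_eq_iff y ⟨x, hA⟩).1 hy
    refine ⟨?_, mem_tors.1 (D.A_le_tors hA)⟩
    have : x = (y : X) - ((y : X) - x) := by abel
    rw [this]
    exact F.sub_mem hyF (K_le_F h hp hk h1)
  · rintro ⟨hF, hx⟩
    have hpx : p ^ k • (p • x) = 0 := by
      rw [← mul_nsmul', ← pow_succ]; exact hx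
    have hA : x ∈ D.A := by
      rw [mem_A]
      exact mem_K_of_mem_F h hp hk hcardp (F.nsmul_mem hF p) hpx
    exact ⟨hA, mem_L.2 ⟨⟨x, hA⟩, hF, rfl⟩⟩

end Fermat.Agent.MS.LOCP.AbsLocalP2
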