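/-
PROGRAMME MS (S12), chapter LOCP (helper2): **the constant term of the odd division polynomials of
a Weierstrass curve with `a₃ = a₆ = 0`** (node at the origin).

For such a curve `Ψ₂Sq(0) = b₆ = 0`, which kills half of the recursion of `preNormEDS`; on odd
indices the recursion closes up and gives

  `preΨ_{2j+1}(0) = (-1)^j a₄^(j(j+1))`.
-/
import Mathlib

set_option autoImplicit false

open WeierstrassCurve Polynomial

namespace Fermat.Agent.MS.LOCP.ConstTerm2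

/-- Closed form of `preNormEDS 0 (-t²) d` on odd indices. -/
theorem preNormEDS_zero_odd {R : Type*} [CommRing R] (t d : R) (j : ℕ) :
    preNormEDS 0 (-t ^ 2) d (2 * (j : ℤ) + 1) = (-1) ^ j * t ^ (j * (j + 1)) := by
  induction j using Nat.strong_induction_on with
  | _ j ih =>
    rcases Nat.lt_or_ge j 2 with hlt | hge
    · interval_cases j
      · simp
      · have : (2 * ((1 : ℕ) : ℤ) + 1) = 3 := by norm_num
        rw [this, preNormEDS_three]
        ring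
    · rw [preNormEDS_odd]
      rcases Nat.even_or_odd' j with ⟨i, rfl | rfl⟩
      · -- `j = 2 i`, `i ≥ 1`
        obtain ⟨k, rfl⟩ : ∃ k, i = k + 1 := ⟨i - 1, by omega⟩
        have heven : Even (((2 * (k + 1) : ℕ)) : ℤ) := by
          rw [Int.even_coe_nat]; exact even_two_mul _
        rw [if_pos heven, if_pos heven]
        have e1 : (((2 * (k + 1) : ℕ)) : ℤ) - 1 = 2 * ((k : ℕ) : ℤ) + 1 := by push_cast; ring
        have e2 : (((2 * (k + 1) : ℕ)) : ℤ) + 1 = 2 * (((k + 1 : ℕ)) : ℤ) + 1 := by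
          push_cast; ring
        rw [e1, e2, ih k (by omega), ih (k + 1) (by omega)]
        have hs : ((-1 : R)) ^ (2 * (k + 1)) = 1 := Even.neg_one_pow (even_two_mul _)
        have hε : ((-1 : R) ^ k) ^ 2 = 1 := by
          rw [← pow_mul]; exact Even.neg_one_pow ⟨k, by ring⟩
        have ht : t ^ (2 * (k + 1) * (2 * (k + 1) + 1)) =
            t ^ (k * (k + 1)) * (t ^ ((k + 1) * (k + 1 + 1))) ^ 3 := by
          rw [← pow_mul, ← pow_add]; congr 1; ring
        rw [hs, ht, pow_succ (-1 : R) k]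
        linear_combination
          (t ^ (k * (k + 1)) * (t ^ ((k + 1) * (k + 1 + 1))) ^ 3 * (((-1 : R) ^ k) ^ 2 + 1)) * hε
      · -- `j = 2 i + 1`, `i ≥ 1`
        obtain ⟨k, rfl⟩ : ∃ k, i = k + 1 := ⟨i - 1, by omega⟩
        have hodd : ¬ Even (((2 * (k + 1) + 1 : ℕ)) : ℤ) := by
          rw [Int.even_coe_nat, Nat.not_even_iff_odd]; exact odd_two_mul_add_one _
        rw [if_neg hodd, if_neg hodd]
        have e1 : (((2 * (k + 1) + 1 : ℕ)) : ℤ) + 2 = 2 * (((k + 2 : ℕ)) : ℤ) + 1 := by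
          push_cast; ring
        have e2 : (((2 * (k + 1) + 1 : ℕ)) : ℤ) = 2 * (((k + 1 : ℕ)) : ℤ) + 1 := by
          push_cast; ring
        rw [e1]
        conv_lhs => rw [e2]
        rw [ih (k + 2) (by omega), ih (k + 1) (by omega)]
        have hs : ((-1 : R)) ^ (2 * (k + 1) + 1) = -1 := Odd.neg_one_pow (odd_two_mul_add_one _)
        have hε : ((-1 : R) ^ k) ^ 2 = 1 := by
          rw [← pow_mul]; exact Even.neg_one_pow ⟨k, by ring⟩
        have ht : t ^ ((2 * (k + 1) + 1) * (2 * (k + 1) + 1 + 1)) =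
            t ^ ((k + 2) * (k + 2 + 1)) * (t ^ ((k + 1) * (k + 1 + 1))) ^ 3 := by
          rw [← pow_mul, ← pow_add]; congr 1; ring
        rw [hs, ht, pow_succ (-1 : R) (k + 1), pow_succ (-1 : R) k]
        linear_combination
          (-(t ^ ((k + 2) * (k + 2 + 1)) * (t ^ ((k + 1) * (k + 1 + 1))) ^ 3) *
            (((-1 : R) ^ k) ^ 2 + 1)) * hε

variable {R : Type*} [CommRing R] (W : WeierstrassCurve R)

/-- **Constant term of `preΨ_{2j+1}`** for a curve with `a₃ = a₆ = 0`. -/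
theorem eval_zero_preΨ_odd (h₃ : W.a₃ = 0) (h₆ : W.a₆ = 0) (j : ℕ) :
    (W.preΨ (2 * (j : ℤ) + 1)).eval 0 = (-1) ^ j * W.a₄ ^ (j * (j + 1)) := by
  have hb : (evalRingHom (0 : R)) (W.Ψ₂Sq ^ 2) = 0 := by
    simp [Ψ₂Sq, WeierstrassCurve.b₆, h₃, h₆]
  have hc : (evalRingHom (0 : R)) W.Ψ₃ = -W.a₄ ^ 2 := by
    simp [Ψ₃, WeierstrassCurve.b₈, h₃, h₆]
  rw [WeierstrassCurve.preΨ, ← coe_evalRingHom, map_preNormEDS, hb, hc]
  exact preNormEDS_zero_odd _ _ j

/-- Natural-number index version. -/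
theorem eval_zero_preΨ_odd' (h₃ : W.a₃ = 0) (h₆ : W.a₆ = 0) (j : ℕ) :
    (W.preΨ ((2 * j + 1 : ℕ) : ℤ)).eval 0 = (-1) ^ j * W.a₄ ^ (j * (j + 1)) := by
  have : ((2 * j + 1 : ℕ) : ℤ) = 2 * (j : ℤ) + 1 := by push_cast; ring
  rw [this]
  exact eval_zero_preΨ_odd W h₃ h₆ j

/-- The constant coefficient. -/
theorem coeff_zero_preΨ_odd (h₃ : W.a₃ = 0) (h₆ : W.a₆ = 0) (j : ℕ) :
    (W.preΨ ((2 * j + 1 : ℕ) : ℤ)).coeff 0 = (-1) ^ j * W.a₄ ^ (j * (j + 1)) := by
  rw [coeff_zero_eq_eval_zero]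
  exact eval_zero_preΨ_odd' W h₃ h₆ j

end Fermat.Agent.MS.LOCP.ConstTerm2
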