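/-
PROGRAMME MS (S12), chapter LOCP (helper2): **a torsion point reducing to the node.**

`(K, v)` an algebraically closed valued field, `W` a Weierstrass curve over `K` with `a₃ = a₆ = 0`
and `Δ ≠ 0`, `n = 2j+1` odd and nonzero in `K`.  If `v(a₄)^(j(j+1)) < v(n)` then some nonzero
`n`-torsion point `(x, y)` has `v x < 1` (it "reduces to the node `(0,0)`").

Proof: the roots of `preΨ_n` are the `x`-coordinates of the nonzero `n`-torsion points, its leading
coefficient is `n` and its constant term is `± a₄^(j(j+1))` (`ConstTerm2`).  If all roots had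
`1 ≤ v`, then `v(n) ≤ v(constant term)`.

No hypothesis on the residue characteristic: this is used at a place over `p` with `n = p`.
-/
import Mathlib
import Fermat.Agent.DivPoly.CardEq29
import Fermat.Agent.S13.AtPSuper
import Fermat.Agent.MS.LOCP.ConstTerm2

set_option autoImplicit false

open WeierstrassCurve WeierstrassCurve.Affine Polynomial

namespace Fermat.Agent.MS.LOCP.TorsNode2

open Fermat.Agent.DivPoly Fermat.Agent.MS.LOCP.ConstTerm2

variable {K : Type*} [Field K] [IsAlgClosed K] [DecidableEq K]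
  {Γ₀ : Type*} [LinearOrderedCommGroupWithZero Γ₀] (v : Valuation K Γ₀)

/-- Some root of `preΨ_{2j+1}` has `v < 1`. -/
theorem exists_root_val_lt_one (W : Affine K) (h₃ : W.a₃ = 0) (h₆ : W.a₆ = 0) {j : ℕ}
    (hn0 : ((2 * j + 1 : ℕ) : K) ≠ 0)
    (hlt : v W.a₄ ^ (j * (j + 1)) < v ((2 * j + 1 : ℕ) : K)) :
    ∃ x : K, (WeierstrassCurve.preΨ W ((2 * j + 1 : ℕ) : ℤ)).eval x = 0 ∧ v x < 1 := by
  by_contra hcon
  push Not at hcon
  set f : K[X] := WeierstrassCurve.preΨ W ((2 * j + 1 : ℕ) : ℤ) with hf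
  have hnZ : ((((2 * j + 1 : ℕ) : ℤ)) : K) ≠ 0 := by exact_mod_cast hn0
  have hf0 : f ≠ 0 := WeierstrassCurve.preΨ_ne_zero W hnZ
  have hsplit : f.Splits := IsAlgClosed.splits f
  have hroots : ∀ ρ ∈ f.roots, 1 ≤ v ρ := by
    intro ρ hρ
    exact hcon ρ ((mem_roots hf0).mp hρ)
  have key := Fermat.Agent.S13.AtPSuper.val_leadingCoeff_mul_prod_le v hsplit hroots ∅
    (by simp)
  rw [Finset.prod_empty, mul_one] at key
  have hodd : ¬ Even (((2 * j + 1 : ℕ) : ℤ)) := by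
    rw [Int.even_coe_nat, Nat.not_even_iff_odd]; exact odd_two_mul_add_one _
  have hlc : f.leadingCoeff = ((2 * j + 1 : ℕ) : K) := by
    rw [hf, WeierstrassCurve.leadingCoeff_preΨ W hnZ, if_neg hodd]
    push_cast; ring
  have hc0 : f.coeff 0 = (-1) ^ j * W.a₄ ^ (j * (j + 1)) := coeff_zero_preΨ_odd W h₃ h₆ j
  rw [hlc, hc0, map_mul, map_pow, map_pow, Valuation.map_neg, map_one, one_pow, one_mul] at key
  exact absurd hlt (not_lt.mpr key)

/-- **A nonzero `(2j+1)`-torsion point with `v x < 1`.** -/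
theorem exists_torsion_val_lt_one {W : Affine K} (h₃ : W.a₃ = 0) (h₆ : W.a₆ = 0) (hΔ : W.Δ ≠ 0)
    {j : ℕ} (hn0 : ((2 * j + 1 : ℕ) : K) ≠ 0)
    (hlt : v W.a₄ ^ (j * (j + 1)) < v ((2 * j + 1 : ℕ) : K)) :
    ∃ (x y : K) (h : W.Nonsingular x y), (2 * j + 1) • Point.some x y h = 0 ∧ v x < 1 := by
  obtain ⟨x, hx, hvx⟩ := exists_root_val_lt_one v W h₃ h₆ hn0 hlt
  obtain ⟨y, hy⟩ := Fermat.Agent.S51.exists_equation W x
  have h : W.Nonsingular x y := (equation_iff_nonsingular_of_Δ_ne_zero hΔ).mp hy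
  exact ⟨x, y, h, (CountFinal.nsmul_eq_zero_iff_preΨ h (odd_two_mul_add_one j)).mpr hx, hvx⟩

end Fermat.Agent.MS.LOCP.TorsNode2
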