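/-
PROGRAMME MS (S12), chapter LOCP (helper2): **the local package of the Frey curve at a place over
`p`** — the hypotheses of helper6's abstract local-at-`p` lemma (finding T/iface/MS-S14-USE6).

For every valuation subring `A` of `ℚ̄` over `p = P.p` there is a subgroup `F ⊆ E(ℚ̄)` such that

* `F` is stable under the decomposition group of `A`;
* CLOSENESS: `σ • Q - Q ∈ F` for every `σ` in the inertia group of `A` and every `Q` of `p`-power
  order;
* `F ∩ E[p] ≠ E[p]` (given a Galois-stable line in `E[p]` in the good case).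

Good case (`p ∤ abc`): `F = E₁`, the kernel of reduction (`S13/GoodClose`, `S13/Supersingular`).
Multiplicative case (`p ∣ abc`): `F = E₀`, the points of the model `Wab a b` (node at the origin)
not reducing to the node; closeness is `MS/LOC/NodeUnip2` (no hypothesis on `v p`), and
`E[p] ⊄ E₀` comes from the constant term of `preΨ_p` (`MS/LOCP/TorsNode2`).
-/
import Mathlib
import Fermat.Agent.S13.LocalP
import Fermat.Agent.S13.Local2
import Fermat.Agent.S13.A1Frey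
import Fermat.Agent.MS.LOC.NodeUnip2
import Fermat.Agent.MS.LOCP.TorsNode2

set_option autoImplicit false

open WeierstrassCurve WeierstrassCurve.Affine WeierstrassCurve.Affine.Point

namespace Fermat.Agent.MS.LOCP.FreyAtP2

open Fermat.Agent.S05 Fermat.Agent.S05.FreyTransport Fermat.Agent.S13

local notation "Qbar" => AlgebraicClosure ℚ

/-! ### The model `Wab a b` is in node shape -/

section NodeShape

variable {K : Type*} [Field K] {Γ₀ : Type*} [LinearOrderedCommGroupWithZero Γ₀]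
  (v : Valuation K Γ₀)

theorem nodeShape_Wab (h2 : v (2 : K) = 1) {a b : K} (ha : v a = 1) (hb : v b < 1)
    (hb0 : b ≠ 0) : Node.NodeShape v (Wab a b).toAffine where
  a₃ := rfl
  a₆ := rfl
  a₁ := by rw [Wab_a₁, _root_.map_zero]; exact zero_le_one
  a₂ := by rw [Wab_a₂, ha]
  a₄ := by rw [Wab_a₄]; exact hb
  a₄0 := by rw [Wab_a₄]; exact hb0
  b₂ := by
    have : (Wab a b).toAffine.b₂ = 2 * 2 * a := by
      simp only [WeierstrassCurve.b₂, Wab_a₁, Wab_a₂]; ring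
    rw [this, map_mul, map_mul, h2, ha, mul_one, mul_one]

theorem Δ_Wab (a b : K) : (Wab a b).Δ = 16 * b ^ 2 * (a ^ 2 - 4 * b) := by
  simp only [WeierstrassCurve.Δ, WeierstrassCurve.b₂, WeierstrassCurve.b₄, WeierstrassCurve.b₆,
    WeierstrassCurve.b₈, Wab_a₁, Wab_a₂, Wab_a₃, Wab_a₄, Wab_a₆]
  ring

end NodeShape

/-! ### The subgroup `E₀` through the model -/

section Model

variable (P : FreyPackage) {A : ValuationSubring Qbar} {t a b : Qbar}
  (ht : t * (t - cA P) * (t + cB P) = 0) (ha : a = 3 * t + cB P - cA P)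
  (hb : b = 3 * t ^ 2 + 2 * (cB P - cA P) * t - cA P * cB P)

/-- The points of the Frey curve whose image in the model `Wab a b` does not reduce to the
node. -/
noncomputable def E0sub (hW : Node.NodeShape A.valuation (Wab a b).toAffine) :
    AddSubgroup (P.freyCurve⁄Qbar).Point where
  carrier := {Q | Node.InE0 A.valuation (freyEquiv P ht ha hb Q)}
  zero_mem' := by
    show Node.InE0 A.valuation (freyEquiv P ht ha hb 0)
    rw [_root_.map_zero]; exact Node.inE0_zero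
  add_mem' := by
    intro Q R hQ hR
    show Node.InE0 A.valuation (freyEquiv P ht ha hb (Q + R))
    rw [map_add]; exact Node.inE0_add hW hQ hR
  neg_mem' := by
    intro Q hQ
    show Node.InE0 A.valuation (freyEquiv P ht ha hb (-Q))
    rw [map_neg]; exact Node.inE0_neg hQ

theorem mem_E0sub (hW : Node.NodeShape A.valuation (Wab a b).toAffine)
    (Q : (P.freyCurve⁄Qbar).Point) :
    Q ∈ E0sub P ht ha hb hW ↔ Node.InE0 A.valuation (freyEquiv P ht ha hb Q) := Iff.rfl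

/-- The image of `σ • (x, y)` in the model. -/
theorem freyEquiv_smul_some (σ : Qbar ≃ₐ[ℚ] Qbar) (hσt : σ t = t) {x₀ y₀ : Qbar}
    (h₀ : (P.freyCurve⁄Qbar).Nonsingular x₀ y₀) :
    ∃ (h1 : (Wab a b).toAffine.Nonsingular (4 * x₀ - t) (8 * y₀ + 4 * x₀))
      (h3 : (Wab a b).toAffine.Nonsingular (σ (4 * x₀ - t)) (σ (8 * y₀ + 4 * x₀))),
      freyEquiv P ht ha hb (Point.some x₀ y₀ h₀) = Point.some _ _ h1 ∧
      freyEquiv P ht ha hb (σ • (Point.some x₀ y₀ h₀ : (P.freyCurve⁄Qbar).Point)) =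
        Point.some _ _ h3 := by
  have h₀' : (P.freyCurve⁄Qbar).Nonsingular (σ x₀) (σ y₀) :=
    (Affine.baseChange_nonsingular (W := P.freyCurve) (f := σ.toAlgHom)
      σ.toAlgHom.injective x₀ y₀).mpr h₀
  have hs : σ • (Point.some x₀ y₀ h₀ : (P.freyCurve⁄Qbar).Point) =
      Point.some (σ x₀) (σ y₀) h₀' := rfl
  obtain ⟨h1, e1⟩ := freyEquiv_some P ht ha hb h₀
  obtain ⟨h2', e2⟩ := freyEquiv_some P ht ha hb h₀'
  have hX : 4 * σ x₀ - t = σ (4 * x₀ - t) := by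
    rw [map_sub, map_mul, hσt, map_ofNat]
  have hY : 8 * σ y₀ + 4 * σ x₀ = σ (8 * y₀ + 4 * x₀) := by
    rw [map_add, map_mul, map_mul, map_ofNat, map_ofNat]
  have key : ∀ (X' Y' : Qbar) (_ : 4 * σ x₀ - t = X') (_ : 8 * σ y₀ + 4 * σ x₀ = Y')
      (h' : (Wab a b).toAffine.Nonsingular (4 * σ x₀ - t) (8 * σ y₀ + 4 * σ x₀)),
      ∃ h'' : (Wab a b).toAffine.Nonsingular X' Y',
        (Point.some _ _ h' : (Wab a b).toAffine.Point) = Point.some X' Y' h'' := by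
    rintro X' Y' rfl rfl h'
    exact ⟨h', rfl⟩
  obtain ⟨h3, e3⟩ := key _ _ hX hY h2'
  exact ⟨h1, h3, e1, by rw [hs, e2, e3]⟩

/-- `E₀` is stable under the decomposition group. -/
theorem smul_mem_E0sub (hW : Node.NodeShape A.valuation (Wab a b).toAffine)
    {σ : Qbar ≃ₐ[ℚ] Qbar} (hσ : σ ∈ A.decompositionSubgroup ℚ) (hσt : σ t = t)
    {Q : (P.freyCurve⁄Qbar).Point} (hQ : Q ∈ E0sub P ht ha hb hW) :
    σ • Q ∈ E0sub P ht ha hb hW := by
  rcases Q with _ | ⟨x₀, y₀, h₀⟩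
  · exact hQ
  · obtain ⟨h1, h3, e1, e3⟩ := freyEquiv_smul_some P ht ha hb σ hσt h₀
    rw [mem_E0sub, e1, Node.inE0_some] at hQ
    rw [mem_E0sub, e3, Node.inE0_some,
      Inertia.valuation_apply_of_mem_decomposition hσ]
    exact hQ

/-- CLOSENESS into `E₀` for points of odd order. -/
theorem smul_sub_mem_E0sub (hW : Node.NodeShape A.valuation (Wab a b).toAffine)
    {σ : Qbar ≃ₐ[ℚ] Qbar} (hσ : σ ∈ A.inertiaSubgroupIn ℚ) (hσt : σ t = t)
    {m : ℕ} (hm : Odd m) (Q : (P.freyCurve⁄Qbar).Point) (hQ : m • Q = 0) :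
    σ • Q - Q ∈ E0sub P ht ha hb hW := by
  rcases Q with _ | ⟨x₀, y₀, h₀⟩
  · have h0 : σ • (Point.zero : (P.freyCurve⁄Qbar).Point) - Point.zero = 0 := by
      have : σ • (Point.zero : (P.freyCurve⁄Qbar).Point) = 0 := rfl
      rw [this]; exact sub_self _
    rw [h0]; exact (E0sub P ht ha hb hW).zero_mem
  · obtain ⟨h1, h3, e1, e3⟩ := freyEquiv_smul_some P ht ha hb σ hσt h₀
    obtain ⟨α, β, hr⟩ := Local2.exists_roots (Wab a b).toAffine
    have hσv : ∀ z, A.valuation ((σ : Qbar →+* Qbar) z) = A.valuation z :=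
      fun x => Inertia.valuation_apply_rat hσ x
    have hσr : ∀ z, A.valuation z ≤ 1 → A.valuation ((σ : Qbar →+* Qbar) z - z) < 1 :=
      fun _ hx => Inertia.valuation_sub_lt_one_rat hσ hx
    have t1 : m • (Point.some _ _ h1 : (Wab a b).toAffine.Point) = 0 := by
      rw [← e1, ← map_nsmul, hQ, _root_.map_zero]
    rw [mem_E0sub, map_sub, e1, e3]
    exact Fermat.Agent.MS.LOC.NodeUnip2.inE0_sigma_sub_of_odd_torsion hW hr
      (σ : Qbar →+* Qbar) hσv hσr hm h1 h3 t1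

/-- `E[n] ⊄ E₀` for odd `n = 2j+1` with `v(b)^(j(j+1)) < v(n)`. -/
theorem exists_torsion_not_mem_E0sub (hW : Node.NodeShape A.valuation (Wab a b).toAffine)
    (hΔ : (Wab a b).Δ ≠ 0) {j : ℕ}
    (hlt : A.valuation b ^ (j * (j + 1)) < A.valuation ((2 * j + 1 : ℕ) : Qbar)) :
    ∃ Q : (P.freyCurve⁄Qbar).Point, (2 * j + 1) • Q = 0 ∧ Q ∉ E0sub P ht ha hb hW := by
  have hn0 : ((2 * j + 1 : ℕ) : Qbar) ≠ 0 := by
    have : (2 * j + 1 : ℕ) ≠ 0 := by omega
    exact_mod_cast this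
  obtain ⟨X, Y, h, hn, hv⟩ := TorsNode2.exists_torsion_val_lt_one A.valuation
    (W := (Wab a b).toAffine) rfl rfl hΔ hn0 (by rw [Wab_a₄]; exact hlt)
  refine ⟨(freyEquiv P ht ha hb).symm (Point.some X Y h), ?_, ?_⟩
  · rw [← map_nsmul, hn, _root_.map_zero]
  · rw [mem_E0sub, AddEquiv.apply_symm_apply, Node.inE0_some]
    exact not_le.mpr hv

end Model

/-! ### The three cases at a place over `p` -/

section Main

variable (P : FreyPackage) {A : ValuationSubring Qbar}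

/-- `E₁` is stable under the decomposition group. -/
theorem smul_mem_E1 {σ : Qbar ≃ₐ[ℚ] Qbar} (hσ : σ ∈ A.decompositionSubgroup ℚ)
    {Q : (P.freyCurve⁄Qbar).Point}
    (hQ : Q ∈ Kernel.E1 A.valuation (P.freyCurve⁄Qbar) (FreyE1.integralCoeffs_frey P A)) :
    σ • Q ∈ Kernel.E1 A.valuation (P.freyCurve⁄Qbar) (FreyE1.integralCoeffs_frey P A) := by
  rcases Q with _ | ⟨x₀, y₀, h₀⟩
  · exact hQ
  · have h₀' : (P.freyCurve⁄Qbar).Nonsingular (σ x₀) (σ y₀) :=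
      (Affine.baseChange_nonsingular (W := P.freyCurve) (f := σ.toAlgHom)
        σ.toAlgHom.injective x₀ y₀).mpr h₀
    have hs : σ • (Point.some x₀ y₀ h₀ : (P.freyCurve⁄Qbar).Point) =
        Point.some (σ x₀) (σ y₀) h₀' := rfl
    rw [Kernel.mem_E1, Kernel.inE1_some] at hQ
    rw [hs, Kernel.mem_E1, Kernel.inE1_some, Inertia.valuation_apply_of_mem_decomposition hσ]
    exact hQ

/-- **Good case** (`p ∤ abc`): `F = E₁`; closeness holds for EVERY point. -/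
theorem good_case (hA : A.LiesOverPrime P.p)
    (ha : ¬ (P.p : ℤ) ∣ P.a) (hb : ¬ (P.p : ℤ) ∣ P.b) (hc : ¬ (P.p : ℤ) ∣ P.c)
    (hline : ∃ N : Submodule (ZMod P.p) (Submodule.torsionBy ℤ (P.freyCurve⁄Qbar).Point P.p),
      IsGaloisStable ℚ N ∧ N ≠ ⊥ ∧ N ≠ ⊤) :
    ∃ F : AddSubgroup (P.freyCurve⁄Qbar).Point,
      (∀ σ ∈ A.decompositionSubgroup ℚ, ∀ Q ∈ F, σ • Q ∈ F) ∧
      (∀ σ ∈ A.inertiaSubgroupIn ℚ, ∀ Q : (P.freyCurve⁄Qbar).Point, σ • Q - Q ∈ F) ∧
      ∃ Q : (P.freyCurve⁄Qbar).Point, P.p • Q = 0 ∧ Q ∉ F := by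
  have hq := P.pp
  have hq2 : P.p ≠ 2 := by have := P.hp5; omega
  have hv : FreyArith.LiesOver A.valuation P.p :=
    ⟨Inertia.valuation_intCast_le_one, Inertia.valuation_intCast_lt_one_iff hq hA⟩
  have h2 : A.valuation (2 : Qbar) = 1 := Inertia.valuation_two_eq_one hq hA hq2
  have hcA : (cA P : Qbar) = (P.a : Qbar) ^ P.p := rfl
  have hcB : (cB P : Qbar) = (P.b : Qbar) ^ P.p := rfl
  refine ⟨Kernel.E1 A.valuation (P.freyCurve⁄Qbar) (FreyE1.integralCoeffs_frey P A),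
    fun σ hσ Q hQ => smul_mem_E1 P hσ hQ, ?_, ?_⟩
  · intro σ hσ Q
    rw [Kernel.mem_E1]
    refine FreyE1.smul_sub_inE1_of_coord P A.valuation σ (t := 0)
      (a := (P.b : Qbar) ^ P.p - (P.a : Qbar) ^ P.p)
      (b := -((P.a : Qbar) ^ P.p * (P.b : Qbar) ^ P.p)) (by ring) (by rw [hcA, hcB]; ring)
      (by rw [hcA, hcB]; ring) (_root_.map_zero σ) h2 (by simp) 0 ?_ Q (zero_nsmul Q)
    intro X Y h h' _
    obtain ⟨g1, g2⟩ := FreyArith.good_val P hv hq ha hb hc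
    have ha2 : A.valuation ((P.b : Qbar) ^ P.p - (P.a : Qbar) ^ P.p) ≤ 1 := by
      have := Inertia.valuation_intCast_le_one (A := A) (P.b ^ P.p - P.a ^ P.p)
      simpa using this
    exact GoodClose.good_close A.valuation h2 ha2 g1 g2 (σ : Qbar →+* Qbar)
      (fun x => Inertia.valuation_apply_rat hσ x)
      (fun _ hx => Inertia.valuation_sub_lt_one_rat hσ hx) (by simp) h h'
  · by_contra hcon
    push Not at hcon
    obtain ⟨N, hN, hbot, htop⟩ := hline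
    refine Supersingular.no_stable_line_nsmul P hA (A1Frey.frey_nsmul_eq_zero_iff P) ?_
      N hN hbot htop
    intro x y h hp
    have := hcon (Point.some x y h) hp
    rwa [Kernel.mem_E1, Kernel.inE1_some] at this

/-- The valuation estimate `v(b)^(j(j+1)) < v(p)` from `v b = v h₀ ^ p`, `v h₀ ≤ v p`. -/
theorem val_pow_lt {b h₀ : Qbar} (hA : A.LiesOverPrime P.p)
    (hbh : A.valuation b = A.valuation h₀ ^ P.p)
    (hh : A.valuation h₀ ≤ A.valuation (P.p : Qbar)) {j : ℕ} (hj : P.p = 2 * j + 1) :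
    A.valuation b ^ (j * (j + 1)) < A.valuation ((2 * j + 1 : ℕ) : Qbar) := by
  have hp5 := P.hp5
  have hj2 : 2 ≤ j := by omega
  have hvp : A.valuation (P.p : Qbar) < 1 := Inertia.valuation_prime_lt_one hA
  have hp0 : (P.p : Qbar) ≠ 0 := by exact_mod_cast P.hp0
  have hpos : 0 < A.valuation (P.p : Qbar) := (Valuation.pos_iff _).mpr hp0
  rw [← hj, hbh, ← pow_mul]
  have h2 : 2 ≤ P.p * (j * (j + 1)) := by
    have : 1 ≤ j * (j + 1) := Nat.one_le_iff_ne_zero.mpr (by positivity)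
    nlinarith
  calc A.valuation h₀ ^ (P.p * (j * (j + 1)))
      ≤ A.valuation (P.p : Qbar) ^ (P.p * (j * (j + 1))) := pow_le_pow_left' hh _
    _ ≤ A.valuation (P.p : Qbar) ^ 2 := pow_le_pow_right_of_le_one' hvp.le h2
    _ < A.valuation (P.p : Qbar) := by
        rw [sq]
        calc A.valuation (P.p : Qbar) * A.valuation (P.p : Qbar)
            < A.valuation (P.p : Qbar) * 1 := by
              exact mul_lt_mul_of_pos_left hvp hpos
          _ = A.valuation (P.p : Qbar) := mul_one _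

/-- `v(n) ≤ v(p)` for an integer `n` divisible by `p`. -/
theorem val_le_of_dvd {n : ℤ} (h : (P.p : ℤ) ∣ n) :
    A.valuation (n : Qbar) ≤ A.valuation (P.p : Qbar) := by
  obtain ⟨m, rfl⟩ := h
  push_cast
  rw [map_mul]
  calc A.valuation (P.p : Qbar) * A.valuation (m : Qbar)
      ≤ A.valuation (P.p : Qbar) * 1 :=
        mul_le_mul' le_rfl (Inertia.valuation_intCast_le_one m)
    _ = A.valuation (P.p : Qbar) := mul_one _

/-- **Multiplicative cases** (`p ∣ abc`): `F = E₀` of the model `Wab a b`. -/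
theorem mult_case (hA : A.LiesOverPrime P.p)
    (hmult : (P.p : ℤ) ∣ P.a * P.b ∨ (P.p : ℤ) ∣ P.c) :
    ∃ F : AddSubgroup (P.freyCurve⁄Qbar).Point,
      (∀ σ ∈ A.decompositionSubgroup ℚ, ∀ Q ∈ F, σ • Q ∈ F) ∧
      (∀ σ ∈ A.inertiaSubgroupIn ℚ, ∀ (Q : (P.freyCurve⁄Qbar).Point) (m : ℕ), Odd m →
        m • Q = 0 → σ • Q - Q ∈ F) ∧
      ∃ Q : (P.freyCurve⁄Qbar).Point, P.p • Q = 0 ∧ Q ∉ F := by
  have hq := P.pp
  have hq2 : P.p ≠ 2 := by have := P.hp5; omega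
  have hv : FreyArith.LiesOver A.valuation P.p :=
    ⟨Inertia.valuation_intCast_le_one, Inertia.valuation_intCast_lt_one_iff hq hA⟩
  have h2 : A.valuation (2 : Qbar) = 1 := Inertia.valuation_two_eq_one hq hA hq2
  have hcA : (cA P : Qbar) = (P.a : Qbar) ^ P.p := rfl
  have hcB : (cB P : Qbar) = (P.b : Qbar) ^ P.p := rfl
  obtain ⟨j, hj⟩ := P.hp_odd
  have hcc : (P.c : Qbar) ^ P.p = (P.a : Qbar) ^ P.p + (P.b : Qbar) ^ P.p :=
    FreyArith.c_pow_eq_cast P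
  have ha0 : (P.a : Qbar) ≠ 0 := Int.cast_ne_zero.mpr P.ha0
  have hb0' : (P.b : Qbar) ≠ 0 := Int.cast_ne_zero.mpr P.hb0
  have hc0 : (P.c : Qbar) ≠ 0 := Int.cast_ne_zero.mpr P.hc0
  rcases hmult with hab | hc
  · -- `p ∣ ab`
    obtain ⟨g1, g2, g3⟩ := FreyArith.mult_ab_val P hv hq hab
    have hb0 : -((P.a : Qbar) ^ P.p * (P.b : Qbar) ^ P.p) ≠ 0 := by
      rw [← mul_pow]
      exact neg_ne_zero.mpr (pow_ne_zero _ (FreyArith.ab_ne_zero P))
    have hblt : A.valuation (-((P.a : Qbar) ^ P.p * (P.b : Qbar) ^ P.p)) < 1 := by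
      rw [g2]; exact pow_lt_one₀ zero_le g3 P.hp0
    have hW := nodeShape_Wab A.valuation h2 g1 hblt hb0
    have hΔ : (Wab ((P.b : Qbar) ^ P.p - (P.a : Qbar) ^ P.p)
        (-((P.a : Qbar) ^ P.p * (P.b : Qbar) ^ P.p))).Δ ≠ 0 := by
      rw [Δ_Wab]
      have e : ((P.b : Qbar) ^ P.p - (P.a : Qbar) ^ P.p) ^ 2 -
          4 * -((P.a : Qbar) ^ P.p * (P.b : Qbar) ^ P.p) = ((P.c : Qbar) ^ P.p) ^ 2 := by
        rw [hcc]; ring
      rw [e]
      exact mul_ne_zero (mul_ne_zero (by norm_num) (pow_ne_zero _ hb0))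
        (pow_ne_zero _ (pow_ne_zero _ hc0))
    have ht : (0 : Qbar) * (0 - cA P) * (0 + cB P) = 0 := by ring
    have ha' : (P.b : Qbar) ^ P.p - (P.a : Qbar) ^ P.p = 3 * 0 + cB P - cA P := by
      rw [hcA, hcB]; ring
    have hb' : -((P.a : Qbar) ^ P.p * (P.b : Qbar) ^ P.p) =
        3 * (0 : Qbar) ^ 2 + 2 * (cB P - cA P) * 0 - cA P * cB P := by
      rw [hcA, hcB]; ring
    have hh : A.valuation ((P.a : Qbar) * (P.b : Qbar)) ≤ A.valuation (P.p : Qbar) := by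
      have := val_le_of_dvd P (A := A) hab
      simpa using this
    refine ⟨E0sub P ht ha' hb' hW,
      fun σ hσ Q hQ => smul_mem_E0sub P ht ha' hb' hW hσ (_root_.map_zero σ) hQ,
      fun σ hσ Q m hm hQ => smul_sub_mem_E0sub P ht ha' hb' hW hσ (_root_.map_zero σ) hm Q hQ,
      ?_⟩
    obtain ⟨Q, hQ, hQF⟩ := exists_torsion_not_mem_E0sub P ht ha' hb' hW hΔ
      (val_pow_lt P hA g2 hh hj)
    exact ⟨Q, by rw [hj]; exact hQ, hQF⟩
  · -- `p ∣ c`
    obtain ⟨g1, g2, g3⟩ := FreyArith.mult_c_val P hv hq hc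
    have hb0 : (P.a : Qbar) ^ P.p * (P.c : Qbar) ^ P.p ≠ 0 := by
      rw [← mul_pow]
      exact pow_ne_zero _ (FreyArith.ac_ne_zero P)
    have hblt : A.valuation ((P.a : Qbar) ^ P.p * (P.c : Qbar) ^ P.p) < 1 := by
      rw [g2]; exact pow_lt_one₀ zero_le g3 P.hp0
    have hW := nodeShape_Wab A.valuation h2 g1 hblt hb0
    have hΔ : (Wab ((P.a : Qbar) ^ P.p + (P.c : Qbar) ^ P.p)
        ((P.a : Qbar) ^ P.p * (P.c : Qbar) ^ P.p)).Δ ≠ 0 := by
      rw [Δ_Wab]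
      have e : ((P.a : Qbar) ^ P.p + (P.c : Qbar) ^ P.p) ^ 2 -
          4 * ((P.a : Qbar) ^ P.p * (P.c : Qbar) ^ P.p) = ((P.b : Qbar) ^ P.p) ^ 2 := by
        rw [hcc]; ring
      rw [e]
      exact mul_ne_zero (mul_ne_zero (by norm_num) (pow_ne_zero _ hb0))
        (pow_ne_zero _ (pow_ne_zero _ hb0'))
    have ht : ((P.a : Qbar) ^ P.p) * ((P.a : Qbar) ^ P.p - cA P) *
        ((P.a : Qbar) ^ P.p + cB P) = 0 := by rw [hcA]; ring
    have ha' : (P.a : Qbar) ^ P.p + (P.c : Qbar) ^ P.p =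
        3 * (P.a : Qbar) ^ P.p + cB P - cA P := by
      rw [hcA, hcB, hcc]; ring
    have hb' : (P.a : Qbar) ^ P.p * (P.c : Qbar) ^ P.p =
        3 * ((P.a : Qbar) ^ P.p) ^ 2 + 2 * (cB P - cA P) * (P.a : Qbar) ^ P.p - cA P * cB P := by
      rw [hcA, hcB, hcc]; ring
    have hσt : ∀ σ : Qbar ≃ₐ[ℚ] Qbar, σ ((P.a : Qbar) ^ P.p) = (P.a : Qbar) ^ P.p := by
      intro σ; simp
    have hh : A.valuation ((P.a : Qbar) * (P.c : Qbar)) ≤ A.valuation (P.p : Qbar) := by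
      have := val_le_of_dvd P (A := A) (Dvd.dvd.mul_left hc P.a)
      simpa using this
    refine ⟨E0sub P ht ha' hb' hW,
      fun σ hσ Q hQ => smul_mem_E0sub P ht ha' hb' hW hσ (hσt σ) hQ,
      fun σ hσ Q m hm hQ => smul_sub_mem_E0sub P ht ha' hb' hW hσ (hσt σ) hm Q hQ,
      ?_⟩
    obtain ⟨Q, hQ, hQF⟩ := exists_torsion_not_mem_E0sub P ht ha' hb' hW hΔ
      (val_pow_lt P hA g2 hh hj)
    exact ⟨Q, by rw [hj]; exact hQ, hQF⟩

/-- **The local package of the Frey curve at a place over `p`** (the hypotheses of the abstract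
local-at-`p` lemma): a subgroup `F` of `E(ℚ̄)`, stable under the decomposition group of `A`,
containing `σ • Q - Q` for every `σ` in the inertia group and every point `Q` of `p`-power order,
and not containing all of `E[p]`. -/
theorem exists_close_subgroup (hA : A.LiesOverPrime P.p)
    (hline : ∃ N : Submodule (ZMod P.p) (Submodule.torsionBy ℤ (P.freyCurve⁄Qbar).Point P.p),
      IsGaloisStable ℚ N ∧ N ≠ ⊥ ∧ N ≠ ⊤) :
    ∃ F : AddSubgroup (P.freyCurve⁄Qbar).Point,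
      (∀ σ ∈ A.decompositionSubgroup ℚ, ∀ Q ∈ F, σ • Q ∈ F) ∧
      (∀ σ ∈ A.inertiaSubgroupIn ℚ, ∀ (Q : (P.freyCurve⁄Qbar).Point) (n : ℕ),
        P.p ^ n • Q = 0 → σ • Q - Q ∈ F) ∧
      ∃ Q : (P.freyCurve⁄Qbar).Point, P.p • Q = 0 ∧ Q ∉ F := by
  rcases FreyArith.trichotomy P (q := P.p) with ⟨ha, hb, hc⟩ | hab | hc
  · obtain ⟨F, h1, h2, h3⟩ := good_case P hA ha hb hc hline
    exact ⟨F, h1, fun σ hσ Q _ _ => h2 σ hσ Q, h3⟩
  · obtain ⟨F, h1, h2, h3⟩ := mult_case P hA (Or.inl hab)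
    exact ⟨F, h1, fun σ hσ Q n hQ => h2 σ hσ Q _ (P.hp_odd.pow) hQ, h3⟩
  · obtain ⟨F, h1, h2, h3⟩ := mult_case P hA (Or.inr hc)
    exact ⟨F, h1, fun σ hσ Q n hQ => h2 σ hσ Q _ (P.hp_odd.pow) hQ, h3⟩

end Main

end Fermat.Agent.MS.LOCP.FreyAtP2
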