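/-
PROGRAMME MS (S12), chapter LOCP (helper2): **the `p`-side inputs of the inductive step
`CofStep8.cof_succ` for the Frey curve.**

For `D : Cof P k`, `1 ≤ k`, given
* `RamAtP P` : the mod-`p` cyclotomic character is ramified at every place over `p`
  (`∀ A | p, ∃ σ ∈ I_A, cycloExp p σ ≢ 1`), and
* a Galois-stable line in `E[p]` (only used at a place of good reduction),
we prove
* `splitAt` : `CofStep8.SplitAt D` (the field `locally_split` of S14 for `p⁻¹K_k / K_k`);
* `thetaLocal_at_p` : for every Galois-stable complement `C'` of `D.C` and EVERY `A | p`, the inertia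
  group of `A` acts trivially on `E[p^(k+1)] / D.next C'` (the `q = p` clause of `ThetaLocal D C'`);
* `mem_K_iff_at_p` : `D.K = F ∩ E[p^k]` for the local subgroup `F` of `FreyAtP2`.

Everything is the abstract lemma `AbsLocalP2` applied to `FreyAtP2.exists_close_subgroup`; good and
multiplicative reduction at `p` are treated uniformly.
-/
import Mathlib
import Fermat.Agent.MS.STEP.CofStep8
import Fermat.Agent.MS.LOCP.AbsLocalP2
import Fermat.Agent.MS.LOCP.FreyAtP2
import Fermat.Agent.S13.UnramVal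
import Fermat.Agent.MS.GLOB.TameCyc6

set_option autoImplicit false
set_option linter.unusedSectionVars false

open WeierstrassCurve WeierstrassCurve.Affine WeierstrassCurve.Affine.Point

namespace Fermat.Agent.MS.LOCP.SplitAtP2

open Fermat.Agent.MS.STEP.StepAlg8 Fermat.Agent.MS.STEP.CofStep8 Fermat.Agent.MS.LOCP.AbsLocalP2

local notation "Qbar" => AlgebraicClosure ℚ
local notation "GQ" => (AlgebraicClosure ℚ ≃ₐ[ℚ] AlgebraicClosure ℚ)

/-- **(R)** the mod-`p` cyclotomic character is ramified at every place over `p`. -/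
def RamAtP (P : FreyPackage) : Prop :=
  ∀ A : ValuationSubring Qbar, A.LiesOverPrime P.p →
    ∃ σ ∈ A.inertiaSubgroupIn ℚ, ((ExtCitation.cycloExp P.p σ : ℕ) : ZMod P.p) ≠ 1

/-- a Galois-stable line in `E[p]`. -/
def HasLine (P : FreyPackage) : Prop :=
  ∃ N : Submodule (ZMod P.p) (Submodule.torsionBy ℤ (P.freyCurve⁄Qbar).Point P.p),
    IsGaloisStable ℚ N ∧ N ≠ ⊥ ∧ N ≠ ⊤

theorem hasLine_of_cofixed {P : FreyPackage}
    (h : HasGaloisStableCofixedLine (K := Qbar) ℚ P.freyCurve P.p) : HasLine P := by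
  obtain ⟨N, hN, hbot, htop, -⟩ := h
  exact ⟨N, hN, hbot, htop⟩

variable {P : FreyPackage} {k : ℕ}

/-- the local data of `AbsLocalP2` at a place over `p`. -/
theorem exists_isClose (D : Cof P k) (hR : RamAtP P) (hline : HasLine P)
    {A : ValuationSubring Qbar} (hA : A.LiesOverPrime P.p) :
    ∃ (F : AddSubgroup (EPt P)) (σ₀ : GQ),
      IsClose D (A.decompositionSubgroup ℚ) (A.inertiaSubgroupIn ℚ) F σ₀ := by
  obtain ⟨F, h1, h2, h3⟩ := FreyAtP2.exists_close_subgroup P hA hline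
  obtain ⟨σ₀, hσ₀, hram⟩ := hR A hA
  exact ⟨F, σ₀,
    { I_le := fun σ hσ => Fermat.Agent.S05.Inertia.mem_decompositionSubgroup hσ
      stable := h1
      close := fun σ hσ Q hQ => h2 σ hσ Q (k + 1) hQ
      notall := h3
      mem := hσ₀
      ram := hram }⟩

/-- **(L2)** `p⁻¹K_k / K_k` is locally split at `p`. -/
theorem splitAt (D : Cof P k) (hk : 1 ≤ k) (hR : RamAtP P) (hline : HasLine P) : SplitAt D := by
  intro A hA
  obtain ⟨F, σ₀, h⟩ := exists_isClose D hR hline hA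
  exact exists_stable_compl h P.pp hk (card_tors_p P) (exists_div_of_mem_K D)

/-- **(L3) at `p`**: for a Galois-stable complement `C'`, the inertia group of EVERY place over `p`
acts trivially on `E[p^(k+1)] / D.next C'`. -/
theorem thetaLocal_at_p (D : Cof P k) (hk : 1 ≤ k) (hR : RamAtP P) (hline : HasLine P)
    {C' : Submodule (ZMod P.p) D.V} (hC' : ∀ σ : GQ, ∀ v ∈ C', σ • v ∈ C')
    (hc : IsCompl D.C C') {A : ValuationSubring Qbar} (hA : A.LiesOverPrime P.p) :
    ∀ σ ∈ A.inertiaSubgroupIn ℚ, ∀ x : EPt P, P.p ^ (k + 1) • x = 0 → σ • x - x ∈ D.next C' := by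
  intro σ hσ x hx
  obtain ⟨F, σ₀, h⟩ := exists_isClose D hR hline hA
  exact smul_sub_mem_next h P.pp hk (card_tors_p P) (exists_div_of_mem_K D) (hC' σ₀) hc hσ hx

/-- the `q = p` clause of `ThetaLocal D C'`. -/
theorem thetaLocal_p (D : Cof P k) (hk : 1 ≤ k) (hR : RamAtP P) (hline : HasLine P)
    {C' : Submodule (ZMod P.p) D.V} (hC' : ∀ σ : GQ, ∀ v ∈ C', σ • v ∈ C')
    (hc : IsCompl D.C C') :
    ∃ A : ValuationSubring Qbar, A.LiesOverPrime P.p ∧
      ∀ σ ∈ A.inertiaSubgroupIn ℚ, ∀ x : EPt P, P.p ^ (k + 1) • x = 0 →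
        σ • x - x ∈ D.next C' := by
  obtain ⟨A, hA⟩ := Fermat.Agent.S13.UnramVal.exists_liesOverPrime (L := Qbar) P.pp
  exact ⟨A, hA, thetaLocal_at_p D hk hR hline hC' hc hA⟩

/-- `D.K = F ∩ E[p^k]` at every place over `p`, with `F` the local subgroup (`E₁` resp. `E₀`). -/
theorem mem_K_iff_at_p (D : Cof P k) (hk : 1 ≤ k) (hR : RamAtP P) (hline : HasLine P)
    {A : ValuationSubring Qbar} (hA : A.LiesOverPrime P.p) :
    ∃ F : AddSubgroup (EPt P),
      (∀ σ ∈ A.decompositionSubgroup ℚ, ∀ Q ∈ F, σ • Q ∈ F) ∧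
      (∀ σ ∈ A.inertiaSubgroupIn ℚ, ∀ (Q : EPt P) (n : ℕ), P.p ^ n • Q = 0 → σ • Q - Q ∈ F) ∧
      ∀ x : EPt P, x ∈ D.K ↔ x ∈ F ∧ P.p ^ k • x = 0 := by
  obtain ⟨F, h1, h2, h3⟩ := FreyAtP2.exists_close_subgroup P hA hline
  obtain ⟨σ₀, hσ₀, hram⟩ := hR A hA
  have h : IsClose D (A.decompositionSubgroup ℚ) (A.inertiaSubgroupIn ℚ) F σ₀ :=
    { I_le := fun σ hσ => Fermat.Agent.S05.Inertia.mem_decompositionSubgroup hσ
      stable := h1
      close := fun σ hσ Q hQ => h2 σ hσ Q (k + 1) hQ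
      notall := h3
      mem := hσ₀
      ram := hram }
  exact ⟨F, h1, h2, fun x => K_eq h P.pp hk (card_tors_p P) x⟩

/-! ### unconditional versions: (R) is helper6's `TameCyc6.exists_inertia_cycloExp_ne_one` -/

/-- **(R)** holds. -/
theorem ramAtP (P : FreyPackage) : RamAtP P :=
  fun _ hA => Fermat.Agent.MS.GLOB.TameCyc6.exists_inertia_cycloExp_ne_one
    (le_trans (by norm_num) P.hp5) hA

/-- **(L2)**, unconditional. -/
theorem splitAt' (D : Cof P k) (hk : 1 ≤ k) (hline : HasLine P) : SplitAt D :=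
  splitAt D hk (ramAtP P) hline

/-- **(L3) at `p`**, unconditional. -/
theorem thetaLocal_at_p' (D : Cof P k) (hk : 1 ≤ k) (hline : HasLine P)
    {C' : Submodule (ZMod P.p) D.V} (hC' : ∀ σ : GQ, ∀ v ∈ C', σ • v ∈ C')
    (hc : IsCompl D.C C') {A : ValuationSubring Qbar} (hA : A.LiesOverPrime P.p) :
    ∀ σ ∈ A.inertiaSubgroupIn ℚ, ∀ x : EPt P, P.p ^ (k + 1) • x = 0 →
      σ • x - x ∈ D.next C' :=
  thetaLocal_at_p D hk (ramAtP P) hline hC' hc hA

/-- the `q = p` clause of `ThetaLocal D C'`, unconditional. -/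
theorem thetaLocal_p' (D : Cof P k) (hk : 1 ≤ k) (hline : HasLine P)
    {C' : Submodule (ZMod P.p) D.V} (hC' : ∀ σ : GQ, ∀ v ∈ C', σ • v ∈ C')
    (hc : IsCompl D.C C') :
    ∃ A : ValuationSubring Qbar, A.LiesOverPrime P.p ∧
      ∀ σ ∈ A.inertiaSubgroupIn ℚ, ∀ x : EPt P, P.p ^ (k + 1) • x = 0 →
        σ • x - x ∈ D.next C' :=
  thetaLocal_p D hk (ramAtP P) hline hC' hc

end Fermat.Agent.MS.LOCP.SplitAtP2
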