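/-
PROGRAMME MS (S12), chapter LOCP (helper2): **from the Prelude's `InZeroComponentAt` to the
valuation-theoretic `E⁰`** (one direction), for the integral Frey model.

* `unit_partial_of_nonsingular_residue` : for `W/ℤ`, `x y ∈ A` with nonsingular reduction, one of
  the two partial derivatives of the integral model is a unit at `A`;
* `one_le_of_inZero_model` (odd residue characteristic): if `InZeroComponentAt A (toInt P Q)` for
  `Q = (x, y)` on the Frey curve, then `1 ≤ v (4 x - t)` for the model parameter `t`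
  (`t = 0`: `q ∣ ab`, `t = a^p`: `q ∣ c`), i.e. the image of `Q` in the model `Wab a b` is in
  `Node.InE0`;
* (the place over `2` is treated in `MS/TOP/InThetaBad2.one_le_of_inZero_two`, with the same lemmas).
-/
import Mathlib
import Fermat.Agent.MS.GLUE.FreyPts4
import Fermat.Agent.MS.LOCP.FreyAtP2
import Fermat.Agent.S13.FreyAtTwo

set_option autoImplicit false

open WeierstrassCurve WeierstrassCurve.Affine WeierstrassCurve.Affine.Point

namespace Fermat.Agent.MS.LOCP.BridgeZero2

open Fermat.Agent.S05 Fermat.Agent.S05.FreyTransport Fermat.Agent.S13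
  Fermat.Agent.MS.GLUE.FreyPts4

local notation "Qbar" => AlgebraicClosure ℚ

/-- **nonsingular reduction ⇒ a unit partial derivative.** -/
theorem unit_partial_of_nonsingular_residue (W : WeierstrassCurve ℤ) (A : ValuationSubring Qbar)
    {x y : Qbar} (hx : x ∈ A) (hy : y ∈ A)
    (hns : (W.map (Int.castRingHom (IsLocalRing.ResidueField A))).toAffine.Nonsingular
      (IsLocalRing.residue A ⟨x, hx⟩) (IsLocalRing.residue A ⟨y, hy⟩)) :
    A.valuation ((W.a₁ : Qbar) * y - (3 * x ^ 2 + 2 * (W.a₂ : Qbar) * x + (W.a₄ : Qbar))) = 1 ∨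
      A.valuation (2 * y + (W.a₁ : Qbar) * x + (W.a₃ : Qbar)) = 1 := by
  rw [Affine.nonsingular_iff] at hns
  obtain ⟨-, hns⟩ := hns
  simp only [WeierstrassCurve.map_a₁, WeierstrassCurve.map_a₂, WeierstrassCurve.map_a₃,
    WeierstrassCurve.map_a₄, eq_intCast] at hns
  rcases hns with h | h
  · left
    set e : A := (W.a₁ : A) * ⟨y, hy⟩ - (3 * ⟨x, hx⟩ ^ 2 + 2 * (W.a₂ : A) * ⟨x, hx⟩ + (W.a₄ : A))
      with he
    have hres : IsLocalRing.residue A e ≠ 0 := by
      rw [he]
      simp only [map_sub, map_mul, map_add, map_pow, map_intCast, map_ofNat]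
      exact sub_ne_zero.mpr h
    have hu : IsUnit e := (IsLocalRing.residue_ne_zero_iff_isUnit e).mp hres
    have h1 := (A.valuation_eq_one_iff e).mp hu
    have hc : ((e : A) : Qbar) =
        (W.a₁ : Qbar) * y - (3 * x ^ 2 + 2 * (W.a₂ : Qbar) * x + (W.a₄ : Qbar)) := by
      rw [he]; push_cast; rfl
    rw [← hc]; exact h1
  · right
    set e : A := 2 * ⟨y, hy⟩ + (W.a₁ : A) * ⟨x, hx⟩ + (W.a₃ : A) with he
    have hres : IsLocalRing.residue A e ≠ 0 := by
      rw [he]
      simp only [map_mul, map_add, map_intCast, map_ofNat]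
      intro h0
      apply h
      linear_combination h0
    have hu : IsUnit e := (IsLocalRing.residue_ne_zero_iff_isUnit e).mp hres
    have h1 := (A.valuation_eq_one_iff e).mp hu
    have hc : ((e : A) : Qbar) = 2 * y + (W.a₁ : Qbar) * x + (W.a₃ : Qbar) := by
      rw [he]; push_cast; rfl
    rw [← hc]; exact h1

/-! ### a point of node shape reducing to the node has both partials in the maximal ideal -/

section Node

variable {K : Type*} [Field K] {Γ₀ : Type*} [LinearOrderedCommGroupWithZero Γ₀]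
  {v : Valuation K Γ₀} {W : Affine K}

/-- on a curve of node shape, `v x < 1` and `v y ≤ 1` force `v y < 1`. -/
theorem val_y_lt_one (hW : Node.NodeShape v W) {x y : K} (h : W.Equation x y) (hx : v x < 1)
    (hy : v y ≤ 1) : v y < 1 := by
  rw [Affine.equation_iff, hW.a₃, hW.a₆] at h
  have h1 : y * (y + W.a₁ * x) = x * (x ^ 2 + W.a₂ * x + W.a₄) := by linear_combination h
  have hx1 : v (x ^ 2 + W.a₂ * x + W.a₄) ≤ 1 := by
    refine (v.map_add_le (v.map_add_le ?_ ?_) hW.a₄.le)
    · rw [map_pow]; exact pow_le_one₀ zero_le hx.le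
    · rw [map_mul]; exact mul_le_one' hW.a₂ hx.le
  have h2 : v y * v (y + W.a₁ * x) < 1 := by
    rw [← map_mul, h1, map_mul]
    calc v x * v (x ^ 2 + W.a₂ * x + W.a₄) ≤ v x * 1 := mul_le_mul' le_rfl hx1
      _ = v x := mul_one _
      _ < 1 := hx
  by_contra hcon
  have hy1 : v y = 1 := le_antisymm hy (not_lt.mp hcon)
  rw [hy1, one_mul] at h2
  have h3 : v (W.a₁ * x) < 1 := by
    rw [map_mul]
    calc v W.a₁ * v x ≤ 1 * v x := mul_le_mul' hW.a₁ le_rfl
      _ = v x := one_mul _
      _ < 1 := hx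
  have h4 : v y < 1 := by
    have : y = (y + W.a₁ * x) - W.a₁ * x := by ring
    rw [this]
    exact lt_of_le_of_lt (v.map_sub _ _) (max_lt h2 h3)
  rw [hy1] at h4
  exact lt_irrefl _ h4

/-- both partial derivatives lie in the maximal ideal at a point reducing to the node. -/
theorem node_partials_lt (hW : Node.NodeShape v W) (h2 : v (2 : K) ≤ 1) (h3 : v (3 : K) ≤ 1)
    {x y : K} (h : W.Equation x y) (hx : v x < 1) (hy : v y ≤ 1) :
    v (W.a₁ * y - (3 * x ^ 2 + 2 * W.a₂ * x + W.a₄)) < 1 ∧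
      v (2 * y + W.a₁ * x + W.a₃) < 1 := by
  have hy1 := val_y_lt_one hW h hx hy
  have hlt : ∀ {c z : K}, v c ≤ 1 → v z < 1 → v (c * z) < 1 := by
    intro c z hc hz
    rw [map_mul]
    calc v c * v z ≤ 1 * v z := mul_le_mul' hc le_rfl
      _ = v z := one_mul _
      _ < 1 := hz
  have hadd : ∀ {z w : K}, v z < 1 → v w < 1 → v (z + w) < 1 := fun hz hw =>
    lt_of_le_of_lt (v.map_add _ _) (max_lt hz hw)
  have hsub : ∀ {z w : K}, v z < 1 → v w < 1 → v (z - w) < 1 := fun hz hw =>
    lt_of_le_of_lt (v.map_sub _ _) (max_lt hz hw)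
  have hx2 : v (x ^ 2) < 1 := by
    rw [sq]; exact hlt hx.le hx
  constructor
  · refine hsub (hlt hW.a₁ hy1) (hadd (hadd (hlt h3 hx2) ?_) hW.a₄)
    rw [mul_assoc]; exact hlt h2 (hlt hW.a₂ hx)
  · rw [hW.a₃, add_zero]
    exact hadd (hlt h2 hy1) (hlt hW.a₁ hx)

end Node

/-! ### the coefficients of the integral Frey model in `ℚ̄` -/

section Coeff

variable (P : FreyPackage)

theorem four_mul_a₂_cast : (4 : Qbar) * (P.freyCurveInt.a₂ : Qbar) =
    (P.b : Qbar) ^ P.p - 1 - (P.a : Qbar) ^ P.p := by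
  have := congrArg (Int.cast : ℤ → Qbar) (Fermat.Agent.MS.LOC.FreyInt2.four_mul_a₂ P)
  push_cast at this
  exact this

theorem sixteen_mul_a₄_cast : (16 : Qbar) * (P.freyCurveInt.a₄ : Qbar) =
    -((P.a : Qbar) ^ P.p) * (P.b : Qbar) ^ P.p := by
  have := congrArg (Int.cast : ℤ → Qbar) (Fermat.Agent.MS.LOC.FreyInt2.sixteen_mul_a₄ P)
  push_cast at this
  exact this

theorem a₁_cast : (P.freyCurveInt.a₁ : Qbar) = 1 := by
  rw [Fermat.Agent.MS.LOC.FreyInt2.a₁_freyCurveInt]; norm_num

theorem a₃_cast : (P.freyCurveInt.a₃ : Qbar) = 0 := by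
  rw [Fermat.Agent.MS.LOC.FreyInt2.a₃_freyCurveInt]; norm_num

end Coeff

/-! ### unfolding `InZeroComponentAt` on an affine point -/

theorem inZero_some_cases (W : WeierstrassCurve ℤ) (A : ValuationSubring Qbar) {x y : Qbar}
    {h : ((W.map (Int.castRingHom ℚ))⁄Qbar).Nonsingular x y}
    (hz : W.InZeroComponentAt A (Point.some x y h)) :
    x ∉ A ∨ ∃ (hx : x ∈ A) (hy : y ∈ A),
      (W.map (Int.castRingHom (IsLocalRing.ResidueField A))).toAffine.Nonsingular
        (IsLocalRing.residue A ⟨x, hx⟩) (IsLocalRing.residue A ⟨y, hy⟩) := by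
  rcases hz with h0 | ⟨x', y', h', he, hc⟩
  · exact absurd h0 (Point.some_ne_zero h)
  · injection he with e1 e2
    subst e1; subst e2
    exact hc

/-! ### the bridge at an odd prime, through the model `Wab a b` -/

section Model

variable (P : FreyPackage) {A : ValuationSubring Qbar} {t a b : Qbar}
  (ht : t * (t - cA P) * (t + cB P) = 0) (ha : a = 3 * t + cB P - cA P)
  (hb : b = 3 * t ^ 2 + 2 * (cB P - cA P) * t - cA P * cB P)

include ht ha hb in
/-- **`InZeroComponentAt ⟹ E⁰` of the model** (odd residue characteristic). -/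
theorem one_le_of_inZero_model (hW : Node.NodeShape A.valuation (Wab a b).toAffine)
    (h2 : A.valuation (2 : Qbar) = 1) (h3 : A.valuation (3 : Qbar) ≤ 1)
    (hvt : A.valuation t ≤ 1) {x y : Qbar} (h : (P.freyCurve⁄Qbar).Nonsingular x y)
    (hz : P.freyCurveInt.InZeroComponentAt A (toInt P (Point.some x y h))) :
    1 ≤ A.valuation (4 * x - t) := by
  by_contra hcon
  have hX : A.valuation (4 * x - t) < 1 := not_le.mp hcon
  have h4 : A.valuation (4 : Qbar) = 1 := by
    have : (4 : Qbar) = 2 * 2 := by norm_num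
    rw [this, map_mul, h2, mul_one]
  have h8 : A.valuation (8 : Qbar) = 1 := by
    have : (8 : Qbar) = 2 * 4 := by norm_num
    rw [this, map_mul, h2, h4, mul_one]
  have h16 : A.valuation (16 : Qbar) = 1 := by
    have : (16 : Qbar) = 4 * 4 := by norm_num
    rw [this, map_mul, h4, mul_one]
  -- `x ∈ A`
  have hxA : A.valuation x ≤ 1 := by
    have e : (4 : Qbar) * x = (4 * x - t) + t := by ring
    have h1 : A.valuation (4 * x) ≤ 1 := by
      rw [e]; exact (A.valuation.map_add _ _).trans (max_le hX.le hvt)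
    rwa [map_mul, h4, one_mul] at h1
  obtain ⟨h', e⟩ := toInt_some P h
  rw [e] at hz
  rcases inZero_some_cases P.freyCurveInt A hz with hnot | ⟨hx, hy, hns⟩
  · exact hnot ((A.valuation_le_one_iff x).mp hxA)
  have hyA : A.valuation y ≤ 1 := (A.valuation_le_one_iff y).mpr hy
  -- the point of the model
  obtain ⟨h1, -⟩ := freyEquiv_some P ht ha hb h
  have hYA : A.valuation (8 * y + 4 * x) ≤ 1 := by
    refine (A.valuation.map_add _ _).trans (max_le ?_ ?_)
    · rw [map_mul, h8, one_mul]; exact hyA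
    · rw [map_mul, h4, one_mul]; exact hxA
  obtain ⟨p1, p2⟩ := node_partials_lt hW h2.le h3 h1.1 hX hYA
  simp only [Wab_a₁, Wab_a₂, Wab_a₃, Wab_a₄, zero_mul, add_zero, zero_sub, Valuation.map_neg]
    at p1 p2
  -- `v Y < 1`
  have hY : A.valuation (8 * y + 4 * x) < 1 := by
    rwa [map_mul, h2, one_mul] at p2
  have hcA : (cA P : Qbar) = (P.a : Qbar) ^ P.p := rfl
  have hcB : (cB P : Qbar) = (P.b : Qbar) ^ P.p := rfl
  rcases unit_partial_of_nonsingular_residue P.freyCurveInt A hx hy hns with hu | hu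
  · -- first partial
    have key : (-16 : Qbar) * ((P.freyCurveInt.a₁ : Qbar) * y -
        (3 * x ^ 2 + 2 * (P.freyCurveInt.a₂ : Qbar) * x + (P.freyCurveInt.a₄ : Qbar))) =
        (3 * (4 * x - t) ^ 2 + 2 * a * (4 * x - t) + b) - 2 * (8 * y + 4 * x) := by
      rw [a₁_cast, ha, hb, hcA, hcB]
      linear_combination (8 * x) * four_mul_a₂_cast P + sixteen_mul_a₄_cast P
    have hlt : A.valuation ((-16 : Qbar) * ((P.freyCurveInt.a₁ : Qbar) * y -
        (3 * x ^ 2 + 2 * (P.freyCurveInt.a₂ : Qbar) * x + (P.freyCurveInt.a₄ : Qbar)))) < 1 := by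
      rw [key]
      refine lt_of_le_of_lt (A.valuation.map_sub _ _) (max_lt p1 ?_)
      rw [map_mul, h2, one_mul]; exact hY
    rw [map_mul, Valuation.map_neg, h16, one_mul, hu] at hlt
    exact lt_irrefl _ hlt
  · -- second partial
    have key : (4 : Qbar) * (2 * y + (P.freyCurveInt.a₁ : Qbar) * x +
        (P.freyCurveInt.a₃ : Qbar)) = 8 * y + 4 * x := by
      rw [a₁_cast, a₃_cast]; ring
    have hlt : A.valuation ((4 : Qbar) * (2 * y + (P.freyCurveInt.a₁ : Qbar) * x +
        (P.freyCurveInt.a₃ : Qbar))) < 1 := by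
      rw [key]; exact hY
    rw [map_mul, h4, one_mul, hu] at hlt
    exact lt_irrefl _ hlt

include ht ha hb in
/-- **`InZeroComponentAt ⟹ E0sub`.** -/
theorem mem_E0sub_of_inZero (hW : Node.NodeShape A.valuation (Wab a b).toAffine)
    (h2 : A.valuation (2 : Qbar) = 1) (h3 : A.valuation (3 : Qbar) ≤ 1)
    (hvt : A.valuation t ≤ 1) (Q : (P.freyCurve⁄Qbar).Point)
    (hz : P.freyCurveInt.InZeroComponentAt A (toInt P Q)) :
    Q ∈ FreyAtP2.E0sub P ht ha hb hW := by
  rcases Q with _ | ⟨x, y, h⟩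
  · exact (FreyAtP2.E0sub P ht ha hb hW).zero_mem
  · obtain ⟨h1, e1⟩ := freyEquiv_some P ht ha hb h
    rw [FreyAtP2.mem_E0sub, e1, Node.inE0_some]
    exact one_le_of_inZero_model P ht ha hb hW h2 h3 hvt h hz

end Model

end Fermat.Agent.MS.LOCP.BridgeZero2
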