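/-
PROGRAMME MS (S12), chapter LOCP (helper2): **a cyclic subgroup of order `p^j` inside a subgroup
`F` that misses part of the `p`-torsion is all of `F ∩ X[p^j]`.**

`X` an abelian group with `#X[p] = p²`, `g ∈ X` of order `p^j` (`1 ≤ j`), `F ≤ X` a subgroup with
`g ∈ F` and `X[p] ⊄ F`.  Then `F ∩ X[p^j] = ⟨g⟩`.  (An element of `F ∩ X[p^j]` outside `⟨g⟩` produces
an element of `F ∩ X[p]` outside `⟨g⟩[p]`, and then `F ⊇ X[p]`.)

This is the counting step of `AbsLocalP2.mem_K_of_mem_F`, freed from `CofData`; it is used at the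
bad primes `q ≠ p` with `F = E⁰` (valuation-theoretic zero component).
-/
import Mathlib
import Fermat.Agent.MS.STEP.StepAlg8

set_option autoImplicit false
set_option linter.unusedSectionVars false

namespace Fermat.Agent.MS.LOCP.CycSub2

open Fermat.Agent.MS.STEP.StepAlg8

variable {X : Type*} [AddCommGroup X] {p j : ℕ}

/-- an element `y` with `p • y ∈ ⟨g⟩` and `p^j • y = 0` differs from a `p`-torsion element by an
element of `⟨g⟩`. -/
theorem exists_sub_tors (hp : p.Prime) (hj : 1 ≤ j) {g : X} (hord : addOrderOf g = p ^ j) {y : X}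
    (hy : p • y ∈ AddSubgroup.zmultiples g) (hyk : p ^ j • y = 0) :
    ∃ g' ∈ AddSubgroup.zmultiples g, p • (y - g') = 0 := by
  obtain ⟨m, hm⟩ := AddSubgroup.mem_zmultiples_iff.1 hy
  obtain ⟨i, rfl⟩ := Nat.exists_eq_add_of_le hj
  have h1 : ((p : ℤ) ^ i * m) • g = 0 := by
    rw [mul_zsmul, hm, ← Nat.cast_pow, natCast_zsmul, ← mul_nsmul', ← pow_succ, add_comm i 1]
    exact hyk
  rw [← addOrderOf_dvd_iff_zsmul_eq_zero, hord, Nat.cast_pow, add_comm 1 i, pow_succ] at h1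
  have hpi : ((p : ℤ) ^ i) ≠ 0 := pow_ne_zero i (Int.natCast_ne_zero.mpr hp.ne_zero)
  obtain ⟨m', hm'⟩ := (mul_dvd_mul_iff_left hpi).1 h1
  refine ⟨m' • g, AddSubgroup.zsmul_mem _ (AddSubgroup.mem_zmultiples _) _, ?_⟩
  rw [nsmul_sub, ← hm, hm', ← natCast_zsmul (m' • g), ← mul_zsmul, sub_self]

/-- the element of order `p` of `⟨g⟩`. -/
theorem exists_order_p (hp : p.Prime) (hj : 1 ≤ j) {g : X} (hord : addOrderOf g = p ^ j) :
    ∃ z ∈ AddSubgroup.zmultiples g, addOrderOf z = p := by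
  obtain ⟨i, rfl⟩ := Nat.exists_eq_add_of_le hj
  refine ⟨p ^ i • g, AddSubgroup.nsmul_mem _ (AddSubgroup.mem_zmultiples _) _, ?_⟩
  rw [addOrderOf_nsmul' _ (pow_ne_zero i hp.ne_zero), hord]
  have : (p ^ (1 + i)).gcd (p ^ i) = p ^ i :=
    Nat.gcd_eq_right (pow_dvd_pow p (by omega))
  rw [this, add_comm 1 i, pow_succ]
  exact Nat.mul_div_cancel_left _ (pow_pos hp.pos i)

/-- **`F ∩ X[p^j] ⊆ ⟨g⟩`.** -/
theorem mem_zmultiples_of_mem (hp : p.Prime) (hj : 1 ≤ j) {g : X} (hord : addOrderOf g = p ^ j)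
    {F : AddSubgroup X} (hgF : g ∈ F) (hnot : ∃ Q : X, p • Q = 0 ∧ Q ∉ F)
    (hcardp : Nat.card ↥(tors X p) = p ^ 2) {x : X} (hxF : x ∈ F) (hxk : p ^ j • x = 0) :
    x ∈ AddSubgroup.zmultiples g := by
  classical
  by_contra hxK
  have hKF : AddSubgroup.zmultiples g ≤ F := (AddSubgroup.zmultiples_le).2 hgF
  have hex : ∃ i : ℕ, p ^ i • x ∈ AddSubgroup.zmultiples g :=
    ⟨j, by rw [hxk]; exact AddSubgroup.zero_mem _⟩
  set i₀ := Nat.find hex with hi₀
  have hjK : p ^ i₀ • x ∈ AddSubgroup.zmultiples g := Nat.find_spec hex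
  have hi0 : i₀ ≠ 0 := by
    intro h0
    rw [h0, pow_zero, one_nsmul] at hjK
    exact hxK hjK
  obtain ⟨i, hi⟩ : ∃ i, i₀ = i + 1 := ⟨i₀ - 1, by omega⟩
  have hiK : p ^ i • x ∉ AddSubgroup.zmultiples g := Nat.find_min hex (by omega)
  set y : X := p ^ i • x with hy
  have hyF : y ∈ F := F.nsmul_mem hxF _
  have hpy : p • y ∈ AddSubgroup.zmultiples g := by
    rw [hy, ← mul_nsmul', ← pow_succ', ← hi]; exact hjK
  have hyk : p ^ j • y = 0 := by
    rw [hy, nsmul_left_comm, hxk, nsmul_zero]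
  obtain ⟨g', hgK, hpe⟩ := exists_sub_tors hp hj hord hpy hyk
  set e : X := y - g' with he
  have heF : e ∈ F := F.sub_mem hyF (hKF hgK)
  have heK : e ∉ AddSubgroup.zmultiples g := fun hc => hiK (by
    have : y = e + g' := by rw [he]; abel
    rw [this]; exact AddSubgroup.add_mem _ hc hgK)
  obtain ⟨z, hzK, hzo⟩ := exists_order_p hp hj hord
  have hpz : p • z = 0 := by rw [← hzo]; exact addOrderOf_nsmul_eq_zero z
  set H : AddSubgroup X := F ⊓ tors X p with hH
  have hHle : H ≤ tors X p := inf_le_right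
  have : Finite ↥(tors X p) :=
    Nat.finite_of_card_ne_zero (by rw [hcardp]; exact pow_ne_zero 2 hp.ne_zero)
  have : Finite ↥H := Finite.of_injective (AddSubgroup.inclusion hHle)
    (AddSubgroup.inclusion_injective hHle)
  have hzH : z ∈ H := ⟨hKF hzK, mem_tors.2 hpz⟩
  have heH : e ∈ H := ⟨heF, mem_tors.2 hpe⟩
  have hZle : AddSubgroup.zmultiples z ≤ H := (AddSubgroup.zmultiples_le).2 hzH
  have hcardZ : Nat.card ↥(AddSubgroup.zmultiples z) = p := by
    rw [Nat.card_zmultiples, hzo]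
  have hdvd1 : p ∣ Nat.card ↥H := by
    rw [← hcardZ]; exact AddSubgroup.card_dvd_of_le hZle
  have hdvd2 : Nat.card ↥H ∣ p ^ 2 := by
    rw [← hcardp]; exact AddSubgroup.card_dvd_of_le hHle
  have hne : Nat.card ↥H ≠ p := by
    intro hc
    have heq : AddSubgroup.zmultiples z = H :=
      AddSubgroup.eq_of_le_of_card_ge hZle (by rw [hc, hcardZ])
    apply heK
    have : e ∈ AddSubgroup.zmultiples z := by rw [heq]; exact heH
    exact (AddSubgroup.zmultiples_le.2 hzK) this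
  have hcardH : Nat.card ↥H = p ^ 2 := by
    obtain ⟨n, hn2, hn⟩ := (Nat.dvd_prime_pow hp).1 hdvd2
    interval_cases n
    · rw [hn, pow_zero] at hdvd1
      exact absurd (Nat.le_of_dvd one_pos hdvd1) (by have := hp.two_le; omega)
    · rw [pow_one] at hn; exact absurd hn hne
    · exact hn
  have hHeq : H = tors X p :=
    AddSubgroup.eq_of_le_of_card_ge hHle (by rw [hcardH, hcardp])
  obtain ⟨Q, hQ, hQF⟩ := hnot
  apply hQF
  have : Q ∈ H := by rw [hHeq]; exact mem_tors.2 hQ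
  exact this.1

end Fermat.Agent.MS.LOCP.CycSub2
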