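/-
PROGRAMME MS (S12), chapter LOCP (helper2): **the two `p`-side named inputs of
`MS/STEP/Assemble8.s12_of_inputs`**, literally:

* `splitProp P hline : Assemble8.SplitProp P.freyCurve P.p`   (L2)
* `thetaPProp P hline : Assemble8.ThetaPProp P.freyCurve P.p` (L3 at `q = p`)

for `hline : HasGaloisStableCofixedLine ℚ P.freyCurve P.p`.  Unconditional (uses helper6's (R)
`TameCyc6.exists_inertia_cycloExp_ne_one` through `SplitAtP2.ramAtP`).
-/
import Mathlib
import Fermat.Agent.MS.STEP.Assemble8
import Fermat.Agent.MS.LOCP.SplitAtP2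

set_option autoImplicit false

open WeierstrassCurve WeierstrassCurve.Affine WeierstrassCurve.Affine.Point

namespace Fermat.Agent.MS.LOCP.InputsP2

open Fermat.Agent.MS.STEP.StepAlg8 Fermat.Agent.MS.STEP.CofStep8 Fermat.Agent.MS.STEP.Assemble8
  Fermat.Agent.MS.LOCP.SplitAtP2

local notation "Qbar" => AlgebraicClosure ℚ

/-- **(L2)** `SplitProp` for the Frey curve. -/
theorem splitProp (P : FreyPackage)
    (hline : HasGaloisStableCofixedLine (K := Qbar) ℚ P.freyCurve P.p) :
    SplitProp P.freyCurve P.p :=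
  fun _ D hk => splitAt' (P := P) D hk (hasLine_of_cofixed hline)

/-- **(L3) at `p`** `ThetaPProp` for the Frey curve. -/
theorem thetaPProp (P : FreyPackage)
    (hline : HasGaloisStableCofixedLine (K := Qbar) ℚ P.freyCurve P.p) :
    ThetaPProp P.freyCurve P.p :=
  fun _ D hk _ hC' hc _ hA =>
    thetaLocal_at_p' (P := P) D hk (hasLine_of_cofixed hline) hC' hc hA

end Fermat.Agent.MS.LOCP.InputsP2
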